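import Mathlib
import Fermat.Agent.S21.ParaClass

/-!
# S41 [PD-COMM]: positive parabolic elements of `SL(2, ℤ)`

`IsPosPar g` : `g` has trace `2` and is a positive (i.e. conjugate to `T ^ m`, `m > 0`) parabolic
element.  Positivity is preserved by every integer matrix of positive determinant intertwining two
elements (`α * g = g' * α`): this is the API-free form of "conjugation by `GL₂⁺(ℚ)` preserves
positive parabolic elements".
(helper92)
-/

set_option autoImplicit false

namespace Fermat.Agent.S41.PDComm92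

open Matrix ModularGroup
open scoped MatrixGroups

/-- Positive parabolic elements of `SL(2, ℤ)`: trace `2`, upper right entry `> 0` or lower left
entry `< 0` (for trace `2` one has `g 0 1 * g 1 0 ≤ 0`, so this says "conjugate to `T ^ m`, `m > 0`"). -/
def IsPosPar (g : SL(2, ℤ)) : Prop :=
  (g : Matrix (Fin 2) (Fin 2) ℤ).trace = 2 ∧ (0 < g 0 1 ∨ g 1 0 < 0)

theorem trace_eq (g : SL(2, ℤ)) : (g : Matrix (Fin 2) (Fin 2) ℤ).trace = g 0 0 + g 1 1 := by
  rw [Matrix.trace_fin_two]

theorem det_eq (g : SL(2, ℤ)) : g 0 0 * g 1 1 - g 0 1 * g 1 0 = 1 := by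
  have := g.det_coe
  rw [Matrix.det_fin_two] at this
  exact this

/-- the four entry equations of `α * g = g' * α`. -/
theorem intertwine_entries {α : Matrix (Fin 2) (Fin 2) ℤ} {g g' : SL(2, ℤ)}
    (h : α * (g : Matrix (Fin 2) (Fin 2) ℤ) = (g' : Matrix (Fin 2) (Fin 2) ℤ) * α) :
    (α 0 0 * g 0 0 + α 0 1 * g 1 0 = g' 0 0 * α 0 0 + g' 0 1 * α 1 0) ∧
    (α 0 0 * g 0 1 + α 0 1 * g 1 1 = g' 0 0 * α 0 1 + g' 0 1 * α 1 1) ∧
    (α 1 0 * g 0 0 + α 1 1 * g 1 0 = g' 1 0 * α 0 0 + g' 1 1 * α 1 0) ∧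
    (α 1 0 * g 0 1 + α 1 1 * g 1 1 = g' 1 0 * α 0 1 + g' 1 1 * α 1 1) := by
  have h00 := congrFun (congrFun h 0) 0
  have h01 := congrFun (congrFun h 0) 1
  have h10 := congrFun (congrFun h 1) 0
  have h11 := congrFun (congrFun h 1) 1
  simp only [Matrix.mul_apply, Fin.sum_univ_two] at h00 h01 h10 h11
  exact ⟨h00, h01, h10, h11⟩

/-- forward direction of `isPosPar_of_intertwine`. -/
theorem IsPosPar.of_intertwine {α : Matrix (Fin 2) (Fin 2) ℤ} (hα : 0 < α.det) {g g' : SL(2, ℤ)}
    (h : α * (g : Matrix (Fin 2) (Fin 2) ℤ) = (g' : Matrix (Fin 2) (Fin 2) ℤ) * α)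
    (hg : IsPosPar g) : IsPosPar g' := by
  obtain ⟨e1, e2, e3, e4⟩ := intertwine_entries h
  rw [Matrix.det_fin_two] at hα
  obtain ⟨htr, hpos⟩ := hg
  rw [trace_eq] at htr
  have hdet := det_eq g
  have hdet' := det_eq g'
  set a := α 0 0
  set b := α 0 1
  set c := α 1 0
  set d := α 1 1
  set p := g 0 0
  set q := g 0 1
  set r := g 1 0
  set s := g 1 1
  set p' := g' 0 0
  set q' := g' 0 1
  set r' := g' 1 0
  set s' := g' 1 1
  have hD : (a * d - b * c) * (p' + s') = (a * d - b * c) * (p + s) := by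
    linear_combination (-d) * e1 + c * e2 + b * e3 - a * e4
  have htr' : p' + s' = 2 := by
    have := mul_left_cancel₀ (ne_of_gt hα) hD
    rw [this, htr]
  -- x := p - 1, s = 1 - x
  have hs : s = 2 - p := by linarith
  have hq' : (a * d - b * c) * q' = a ^ 2 * q - b ^ 2 * r - 2 * a * b * (p - 1) := by
    rw [hs] at e2
    linear_combination b * e1 - a * e2
  have hr' : (a * d - b * c) * r' = -(c ^ 2 * q) + d ^ 2 * r + 2 * c * d * (p - 1) := by
    rw [hs] at e4
    linear_combination (-d) * e3 + c * e4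
  have hx : (p - 1) ^ 2 + q * r = 0 := by
    rw [hs] at hdet
    linear_combination -hdet
  refine ⟨by rw [trace_eq]; exact htr', ?_⟩
  by_contra hcon
  rw [not_or, not_lt, not_lt] at hcon
  obtain ⟨hq'0, hr'0⟩ := hcon
  set D := a * d - b * c with hDdef
  rcases hpos with hq | hr
  · -- q > 0
    have h1 : q * (D * q') = (a * q - b * (p - 1)) ^ 2 := by
      rw [hq']
      linear_combination (-(b ^ 2)) * hx
    have h2 : q * (-(D * r')) = (c * q - d * (p - 1)) ^ 2 := by
      rw [hr']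
      linear_combination (-(d ^ 2)) * hx
    have h3 : q * (D * q') ≤ 0 :=
      mul_nonpos_of_nonneg_of_nonpos hq.le (mul_nonpos_of_nonneg_of_nonpos hα.le hq'0)
    have h4 : q * (-(D * r')) ≤ 0 := by
      apply mul_nonpos_of_nonneg_of_nonpos hq.le
      rw [neg_nonpos]
      exact mul_nonneg hα.le hr'0
    have h5 : a * q - b * (p - 1) = 0 := by
      have : (a * q - b * (p - 1)) ^ 2 ≤ 0 := by rw [← h1]; exact h3
      exact pow_eq_zero_iff (two_ne_zero) |>.mp (le_antisymm this (sq_nonneg _))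
    have h6 : c * q - d * (p - 1) = 0 := by
      have : (c * q - d * (p - 1)) ^ 2 ≤ 0 := by rw [← h2]; exact h4
      exact pow_eq_zero_iff (two_ne_zero) |>.mp (le_antisymm this (sq_nonneg _))
    have h7 : D * q = 0 := by
      rw [hDdef]
      linear_combination d * h5 - b * h6
    rcases mul_eq_zero.mp h7 with h | h
    · exact absurd h (ne_of_gt hα)
    · exact absurd h (ne_of_gt hq)
  · -- r < 0
    have h1 : r * (D * q') = -(a * (p - 1) + b * r) ^ 2 := by
      rw [hq']
      linear_combination (a ^ 2) * hx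
    have h2 : r * (D * r') = (c * (p - 1) + d * r) ^ 2 := by
      rw [hr']
      linear_combination (-(c ^ 2)) * hx
    have h3 : 0 ≤ r * (D * q') :=
      mul_nonneg_of_nonpos_of_nonpos hr.le (mul_nonpos_of_nonneg_of_nonpos hα.le hq'0)
    have h4 : r * (D * r') ≤ 0 :=
      mul_nonpos_of_nonpos_of_nonneg hr.le (mul_nonneg hα.le hr'0)
    have h5 : a * (p - 1) + b * r = 0 := by
      have : (a * (p - 1) + b * r) ^ 2 ≤ 0 := by
        have := h1 ▸ h3
        linarith
      exact pow_eq_zero_iff (two_ne_zero) |>.mp (le_antisymm this (sq_nonneg _))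
    have h6 : c * (p - 1) + d * r = 0 := by
      have : (c * (p - 1) + d * r) ^ 2 ≤ 0 := by rw [← h2]; exact h4
      exact pow_eq_zero_iff (two_ne_zero) |>.mp (le_antisymm this (sq_nonneg _))
    have h7 : D * r = 0 := by
      rw [hDdef]
      linear_combination a * h6 - c * h5
    rcases mul_eq_zero.mp h7 with h | h
    · exact absurd h (ne_of_gt hα)
    · exact absurd h (ne_of_lt hr)

/-- **Positivity is preserved by intertwining matrices of positive determinant.** -/
theorem isPosPar_of_intertwine {α : Matrix (Fin 2) (Fin 2) ℤ} (hα : 0 < α.det) {g g' : SL(2, ℤ)}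
    (h : α * (g : Matrix (Fin 2) (Fin 2) ℤ) = (g' : Matrix (Fin 2) (Fin 2) ℤ) * α) :
    IsPosPar g ↔ IsPosPar g' := by
  refine ⟨IsPosPar.of_intertwine hα h, ?_⟩
  -- the adjugate intertwines in the other direction
  have hadj : α.adjugate * (g' : Matrix (Fin 2) (Fin 2) ℤ)
      = (g : Matrix (Fin 2) (Fin 2) ℤ) * α.adjugate := by
    have h1 : α.det • (α.adjugate * (g' : Matrix (Fin 2) (Fin 2) ℤ))
        = α.det • ((g : Matrix (Fin 2) (Fin 2) ℤ) * α.adjugate) := by
      calc α.det • (α.adjugate * (g' : Matrix (Fin 2) (Fin 2) ℤ))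
          = α.adjugate * (g' : Matrix (Fin 2) (Fin 2) ℤ) * (α.det • (1 : Matrix _ _ ℤ)) := by
            rw [Matrix.mul_smul, Matrix.mul_one]
        _ = α.adjugate * ((g' : Matrix (Fin 2) (Fin 2) ℤ) * α) * α.adjugate := by
            rw [← Matrix.mul_adjugate]
            simp only [Matrix.mul_assoc]
        _ = α.adjugate * (α * (g : Matrix (Fin 2) (Fin 2) ℤ)) * α.adjugate := by rw [h]
        _ = (α.adjugate * α) * (g : Matrix (Fin 2) (Fin 2) ℤ) * α.adjugate := by
            simp only [Matrix.mul_assoc]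
        _ = α.det • ((g : Matrix (Fin 2) (Fin 2) ℤ) * α.adjugate) := by
            rw [Matrix.adjugate_mul, Matrix.smul_mul, Matrix.one_mul, Matrix.smul_mul]
    exact smul_right_injective _ (ne_of_gt hα) h1
  have hdet : 0 < α.adjugate.det := by
    rw [Matrix.det_adjugate]
    simpa using hα
  exact IsPosPar.of_intertwine hdet hadj

/-- conjugation inside `SL(2, ℤ)` preserves positive parabolic elements. -/
theorem isPosPar_conj (h g : SL(2, ℤ)) : IsPosPar (h * g * h⁻¹) ↔ IsPosPar g := by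
  have hint : (h : Matrix (Fin 2) (Fin 2) ℤ) * (g : Matrix (Fin 2) (Fin 2) ℤ)
      = ((h * g * h⁻¹ : SL(2, ℤ)) : Matrix (Fin 2) (Fin 2) ℤ) * (h : Matrix (Fin 2) (Fin 2) ℤ) := by
    rw [← Matrix.SpecialLinearGroup.coe_mul, ← Matrix.SpecialLinearGroup.coe_mul]
    congr 1
    group
  have hdet : 0 < (h : Matrix (Fin 2) (Fin 2) ℤ).det := by rw [h.det_coe]; exact one_pos
  exact (isPosPar_of_intertwine hdet hint).symm

theorem isPosPar_T_zpow (m : ℤ) : IsPosPar (T ^ m) ↔ 0 < m := by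
  unfold IsPosPar
  rw [trace_eq]
  have h := ModularGroup.coe_T_zpow m
  have h00 : (T ^ m) 0 0 = 1 := by rw [h]; rfl
  have h01 : (T ^ m) 0 1 = m := by rw [h]; rfl
  have h10 : (T ^ m) 1 0 = 0 := by rw [h]; rfl
  have h11 : (T ^ m) 1 1 = 1 := by rw [h]; rfl
  rw [h00, h01, h10, h11]
  constructor
  · rintro ⟨-, h | h⟩
    · exact h
    · exact absurd h (lt_irrefl 0)
  · intro hm
    exact ⟨by norm_num, Or.inl hm⟩

/-- every positive parabolic element is `h * T ^ m * h⁻¹` with `m > 0`. -/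
theorem IsPosPar.exists_conj {g : SL(2, ℤ)} (hg : IsPosPar g) :
    ∃ (h : SL(2, ℤ)) (m : ℤ), 0 < m ∧ g = h * T ^ m * h⁻¹ := by
  obtain ⟨h, m, hm⟩ := Fermat.Agent.S21.ParaClass.exists_conj_of_trace_eq_two g hg.1
  refine ⟨h, m, ?_, hm⟩
  rw [hm, isPosPar_conj, isPosPar_T_zpow] at hg
  exact hg

/-- an element conjugating `T ^ m` (`m ≠ 0`) to `T ^ n` is `± T ^ k`, and `n = m`. -/
theorem eq_of_conj_T_zpow {g : SL(2, ℤ)} {m n : ℤ} (h : g * T ^ m * g⁻¹ = T ^ n) (hm : m ≠ 0) :
    (∃ k : ℤ, g = T ^ k ∨ g = -T ^ k) ∧ n = m := by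
  have h' : g * T ^ m = T ^ n * g := by
    rw [← h]; group
  have hM := congrArg (fun x : SL(2, ℤ) => (x : Matrix (Fin 2) (Fin 2) ℤ)) h'
  simp only [Matrix.SpecialLinearGroup.coe_mul, ModularGroup.coe_T_zpow] at hM
  have e01 := congrFun (congrFun hM 0) 1
  have e11 := congrFun (congrFun hM 1) 1
  simp only [Matrix.mul_apply, Fin.sum_univ_two, Matrix.of_apply, Matrix.cons_val', Matrix.cons_val_zero,
    Matrix.cons_val_one, Matrix.cons_val_fin_one] at e01 e11
  have hdet := det_eq g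
  have hc : g 1 0 = 0 := by
    have : g 1 0 * m = 0 := by linarith
    rcases mul_eq_zero.mp this with h0 | h0
    · exact h0
    · exact absurd h0 hm
  rw [hc, mul_zero, sub_zero] at hdet
  rcases Int.eq_one_or_neg_one_of_mul_eq_one' hdet with ⟨ha, hd⟩ | ⟨ha, hd⟩
  · refine ⟨⟨g 0 1, Or.inl ?_⟩, ?_⟩
    · exact Fermat.Agent.S21.ParaClass.eq_T_zpow_of_col g ha hc
    · rw [ha, hd] at e01
      linarith
  · refine ⟨⟨-(g 0 1), Or.inr ?_⟩, ?_⟩
    · have hneg : (-g) 0 0 = 1 := by
        rw [Matrix.SpecialLinearGroup.coe_neg, Matrix.neg_apply, ha]; norm_num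
      have hneg10 : (-g) 1 0 = 0 := by
        rw [Matrix.SpecialLinearGroup.coe_neg, Matrix.neg_apply, hc]; norm_num
      have := Fermat.Agent.S21.ParaClass.eq_T_zpow_of_col (-g) hneg hneg10
      have h01 : (-g) 0 1 = -(g 0 1) := by
        rw [Matrix.SpecialLinearGroup.coe_neg, Matrix.neg_apply]
      rw [h01] at this
      rw [← this, neg_neg]
    · rw [ha, hd] at e01
      linarith

end Fermat.Agent.S41.PDComm92
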