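import Mathlib
import Fermat.Agent.S41.PDComm92.PosPar
import Fermat.Agent.S41.CuspSum22.Core

/-!
# S41 [PD-COMM]: the cusp generators of `Γ ≤ SL(2, ℤ)` are permuted by positive intertwiners

`G = SL(2, ℤ)` acting on `Ω`, `τ = T`, `Γ = stabilizer G ω₀`, `C : CuspSys T ω₀` (helper22's cusp
system) with positive widths, `-1` acting trivially on `Ω`.

* `isPosPar_γ` : the cusp generators `C.γ i` are positive parabolic;
* `exists_conj_pow_γ` : every positive parabolic element of `Γ` is `δ * (C.γ i) ^ n * δ⁻¹`, `δ ∈ Γ`,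
  `n > 0`;
* `conj_pow_γ_inj` : the pair `(i, n)` is unique;
* `exists_cuspEquiv_of_posPar` : a group isomorphism `θ : Γ₁ ≃* Γ₂` preserving positive parabolic
  elements (in both directions) induces a bijection `σ` of the cusps with
  `θ (C₁.γ i) = δ * C₂.γ (σ i) * δ⁻¹`;
* `exists_cuspEquiv` : this holds as soon as `θ` is intertwined by an integer matrix of positive
  determinant, `α * γ = θ γ * α` (i.e. `θ` is conjugation by an element of `GL₂⁺(ℚ)`).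

The conclusion is verbatim the pair of hypotheses `(σ, hθ)` of `CuspSum22.form_comp_iso`.
(helper92)
-/

set_option autoImplicit false

namespace Fermat.Agent.S41.PDComm92

open ModularGroup MulAction
open scoped MatrixGroups
open Fermat.Agent.S41.CuspSum22

section General

variable {G : Type*} [Group G] {Ω : Type*} [MulAction G Ω] {τ : G} {ω₀ : Ω} (C : CuspSys τ ω₀)

/-- powers of `τ ^ w` fix the base point of a cusp. -/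
theorem zpow_w_smul_base (i : C.I) (q : ℤ) :
    (τ ^ (C.w i)) ^ q • ((C.h i)⁻¹ • ω₀) = (C.h i)⁻¹ • ω₀ := by
  have hmem : τ ^ (C.w i) ∈ MulAction.stabilizer G ((C.h i)⁻¹ • ω₀) :=
    MulAction.mem_stabilizer_iff.mpr (C.fix i)
  exact MulAction.mem_stabilizer_iff.mp (Subgroup.zpow_mem _ hmem q)

/-- decomposition `τ ^ k = (τ ^ w) ^ (k / w) * τ ^ (k % w)`. -/
theorem zpow_eq_mul (w : ℕ) (k : ℤ) :
    τ ^ k = (τ ^ w) ^ (k / (w : ℤ)) * τ ^ (k % (w : ℤ)) := by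
  rw [← zpow_natCast τ w, ← _root_.zpow_mul, ← zpow_add, Int.mul_ediv_add_emod]

theorem zpow_smul_base_emod (i : C.I) (k : ℤ) :
    (τ ^ k)⁻¹ • ((C.h i)⁻¹ • ω₀) = (τ ^ (k % (C.w i : ℤ)))⁻¹ • ((C.h i)⁻¹ • ω₀) := by
  rw [zpow_eq_mul (τ := τ) (C.w i) k, _root_.mul_inv_rev, mul_smul,
    ← zpow_neg (τ ^ C.w i), zpow_w_smul_base]

/-- any translate of a base point by a power of `τ` is in the enumeration of the same cusp. -/
theorem exists_zpow_inv_smul_base (hw : ∀ i, 0 < C.w i) (i : C.I) (k : ℤ) :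
    ∃ r : Fin (C.w i), (τ ^ k)⁻¹ • ((C.h i)⁻¹ • ω₀) = C.e ⟨i, r⟩ := by
  have hwz : (0 : ℤ) < (C.w i : ℤ) := by exact_mod_cast hw i
  have hr0 : 0 ≤ k % (C.w i : ℤ) := Int.emod_nonneg _ hwz.ne'
  have hr1 : k % (C.w i : ℤ) < C.w i := Int.emod_lt_of_pos _ hwz
  refine ⟨⟨(k % (C.w i : ℤ)).toNat, by omega⟩, ?_⟩
  rw [C.he, zpow_smul_base_emod]
  congr 2
  rw [← zpow_natCast, Int.toNat_of_nonneg hr0]

theorem base_eq_e (hw : ∀ i, 0 < C.w i) (i : C.I) :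
    (C.h i)⁻¹ • ω₀ = C.e ⟨i, ⟨0, hw i⟩⟩ := by
  rw [C.he]; simp

/-- if a power of `τ` fixes the base point of a cusp, the width divides the exponent. -/
theorem w_dvd_of_zpow_smul_base (hw : ∀ i, 0 < C.w i) (i : C.I) (m : ℤ)
    (h : τ ^ m • ((C.h i)⁻¹ • ω₀) = (C.h i)⁻¹ • ω₀) : (C.w i : ℤ) ∣ m := by
  have hwz : (0 : ℤ) < (C.w i : ℤ) := by exact_mod_cast hw i
  have hr0 : 0 ≤ m % (C.w i : ℤ) := Int.emod_nonneg _ hwz.ne'
  have hr1 : m % (C.w i : ℤ) < C.w i := Int.emod_lt_of_pos _ hwz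
  have h1 : (τ ^ m)⁻¹ • ((C.h i)⁻¹ • ω₀) = (C.h i)⁻¹ • ω₀ := by
    rw [inv_smul_eq_iff, h]
  rw [zpow_smul_base_emod] at h1
  have h2 : C.e ⟨i, ⟨(m % (C.w i : ℤ)).toNat, by omega⟩⟩ = C.e ⟨i, ⟨0, hw i⟩⟩ := by
    rw [← base_eq_e C hw i, C.he]
    rw [← h1]
    congr 2
    rw [← zpow_natCast, Int.toNat_of_nonneg hr0]
  have h3 := C.e.injective h2
  have h4 : (m % (C.w i : ℤ)).toNat = 0 := by
    have := congrArg (fun x : (Σ i : C.I, Fin (C.w i)) => (x.2 : ℕ)) h3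
    simpa using this
  have h5 : m % (C.w i : ℤ) = 0 := by omega
  exact Int.dvd_of_emod_eq_zero h5

/-- two base points in the same `τ`-orbit belong to the same cusp. -/
theorem eq_of_base_eq_zpow_smul (hw : ∀ i, 0 < C.w i) {i j : C.I} (k : ℤ)
    (h : (C.h i)⁻¹ • ω₀ = (τ ^ k)⁻¹ • ((C.h j)⁻¹ • ω₀)) : i = j := by
  obtain ⟨r, hr⟩ := exists_zpow_inv_smul_base C hw j k
  rw [hr, base_eq_e C hw i] at h
  have := C.e.injective h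
  exact congrArg Sigma.fst this

end General

section SL2

variable {Ω : Type*} [MulAction SL(2, ℤ) Ω] {ω₀ : Ω} (C : CuspSys (T : SL(2, ℤ)) ω₀)

/-- the cusp generators are positive parabolic. -/
theorem isPosPar_γ (hw : ∀ i, 0 < C.w i) (i : C.I) :
    IsPosPar ((C.γ i : MulAction.stabilizer SL(2, ℤ) ω₀) : SL(2, ℤ)) := by
  rw [CuspSys.coe_γ, isPosPar_conj, ← zpow_natCast, isPosPar_T_zpow]
  exact_mod_cast hw i

/-- **every positive parabolic element of `Γ` is `Γ`-conjugate to a positive power of a cusp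
generator.** -/
theorem exists_conj_pow_γ (hw : ∀ i, 0 < C.w i) (γ : MulAction.stabilizer SL(2, ℤ) ω₀)
    (hγ : IsPosPar (γ : SL(2, ℤ))) :
    ∃ (i : C.I) (δ : MulAction.stabilizer SL(2, ℤ) ω₀) (n : ℕ),
      0 < n ∧ γ = δ * (C.γ i) ^ n * δ⁻¹ := by
  obtain ⟨g, m, hm, hg⟩ := hγ.exists_conj
  obtain ⟨⟨i, k⟩, hik⟩ := C.e.surjective (g⁻¹ • ω₀)
  rw [C.he] at hik
  -- `δ₀ = g T^{-k} h_i⁻¹ ∈ Γ`
  have hδ : (g * (T ^ (k : ℕ))⁻¹ * (C.h i)⁻¹) • ω₀ = ω₀ := by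
    rw [mul_smul, mul_smul, hik, smul_inv_smul]
  set δ : MulAction.stabilizer SL(2, ℤ) ω₀ :=
    ⟨g * (T ^ (k : ℕ))⁻¹ * (C.h i)⁻¹, MulAction.mem_stabilizer_iff.mpr hδ⟩ with hδdef
  have hconj : (γ : SL(2, ℤ)) = (δ : SL(2, ℤ)) * (C.h i * T ^ m * (C.h i)⁻¹) * (δ : SL(2, ℤ))⁻¹ := by
    rw [hg, hδdef]
    simp only []
    group
  -- `T ^ m` fixes the base point
  have hfix : (T : SL(2, ℤ)) ^ m • ((C.h i)⁻¹ • ω₀) = (C.h i)⁻¹ • ω₀ := by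
    have h1 : (C.h i * T ^ m * (C.h i)⁻¹) = (δ : SL(2, ℤ))⁻¹ * (γ : SL(2, ℤ)) * (δ : SL(2, ℤ)) := by
      rw [hconj]; group
    have h2 : (C.h i * T ^ m * (C.h i)⁻¹) • ω₀ = ω₀ := by
      rw [h1]
      exact MulAction.mem_stabilizer_iff.mp (δ⁻¹ * γ * δ).2
    rw [mul_smul, mul_smul] at h2
    have h3 := congrArg (fun x => (C.h i)⁻¹ • x) h2
    simpa using h3
  obtain ⟨q, hq⟩ := w_dvd_of_zpow_smul_base C hw i m hfix
  have hwz : (0 : ℤ) < (C.w i : ℤ) := by exact_mod_cast hw i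
  have hq0 : 0 < q := by
    rw [hq] at hm
    exact (mul_pos_iff_of_pos_left hwz).mp hm
  refine ⟨i, δ, q.toNat, by omega, ?_⟩
  apply Subtype.ext
  rw [Subgroup.coe_mul, Subgroup.coe_mul, Subgroup.coe_inv, Subgroup.coe_pow, CuspSys.coe_γ, hconj,
    conj_pow]
  congr 3
  rw [← zpow_natCast, ← zpow_natCast, ← _root_.zpow_mul, Int.toNat_of_nonneg hq0.le, hq]

/-- `-1` acts trivially: so does its inverse. -/
theorem neg_one_inv_smul (hneg : ∀ ω : Ω, (-1 : SL(2, ℤ)) • ω = ω) (ω : Ω) :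
    (-1 : SL(2, ℤ))⁻¹ • ω = ω := by
  rw [inv_smul_eq_iff, hneg]

/-- **uniqueness of the cusp and of the exponent.** -/
theorem conj_pow_γ_inj (hw : ∀ i, 0 < C.w i) (hneg : ∀ ω : Ω, (-1 : SL(2, ℤ)) • ω = ω)
    {i j : C.I} {n m : ℕ} (hn : 0 < n) (δ δ' : MulAction.stabilizer SL(2, ℤ) ω₀)
    (h : δ * (C.γ i) ^ n * δ⁻¹ = δ' * (C.γ j) ^ m * δ'⁻¹) : i = j ∧ n = m := by
  have hG := congrArg (fun x : MulAction.stabilizer SL(2, ℤ) ω₀ => (x : SL(2, ℤ))) h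
  simp only [Subgroup.coe_mul, Subgroup.coe_inv, Subgroup.coe_pow, CuspSys.coe_γ, conj_pow] at hG
  set g : SL(2, ℤ) := ((δ' : SL(2, ℤ)) * C.h j)⁻¹ * ((δ : SL(2, ℤ)) * C.h i) with hgdef
  have hconj : g * T ^ (((C.w i * n : ℕ)) : ℤ) * g⁻¹ = T ^ (((C.w j * m : ℕ)) : ℤ) := by
    rw [zpow_natCast, zpow_natCast, pow_mul, pow_mul]
    have : (T ^ C.w j) ^ m = ((δ' : SL(2, ℤ)) * C.h j)⁻¹ *
        ((δ' : SL(2, ℤ)) * (C.h j * (T ^ C.w j) ^ m * (C.h j)⁻¹) * (δ' : SL(2, ℤ))⁻¹) *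
        ((δ' : SL(2, ℤ)) * C.h j) := by group
    rw [this, ← hG, hgdef]
    group
  have hne : ((C.w i * n : ℕ) : ℤ) ≠ 0 := by
    have := Nat.mul_pos (hw i) hn
    exact_mod_cast this.ne'
  obtain ⟨⟨k, hk⟩, hnm⟩ := eq_of_conj_T_zpow hconj hne
  -- the base points are in the same `T`-orbit
  have hbase : (C.h i)⁻¹ • ω₀ = g⁻¹ • ((C.h j)⁻¹ • ω₀) := by
    have h1 : (C.h i)⁻¹ = g⁻¹ * (C.h j)⁻¹ * (δ' : SL(2, ℤ))⁻¹ * (δ : SL(2, ℤ)) := by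
      rw [hgdef]; group
    have hδ : (δ : SL(2, ℤ)) • ω₀ = ω₀ := MulAction.mem_stabilizer_iff.mp δ.2
    have hδ' : (δ' : SL(2, ℤ))⁻¹ • ω₀ = ω₀ := by
      rw [inv_smul_eq_iff]; exact (MulAction.mem_stabilizer_iff.mp δ'.2).symm
    rw [h1, mul_smul, mul_smul, mul_smul, hδ, hδ']
  have hbase' : (C.h i)⁻¹ • ω₀ = ((T : SL(2, ℤ)) ^ k)⁻¹ • ((C.h j)⁻¹ • ω₀) := by
    rcases hk with hk | hk
    · rw [hbase, hk]
    · have : g⁻¹ = (T ^ k)⁻¹ * (-1 : SL(2, ℤ))⁻¹ := by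
        rw [hk, ← _root_.mul_inv_rev, neg_one_mul]
      rw [hbase, this, mul_smul, neg_one_inv_smul hneg]
  have hij : i = j := eq_of_base_eq_zpow_smul C hw k hbase'
  subst hij
  refine ⟨rfl, ?_⟩
  have h2 : C.w i * m = C.w i * n := by exact_mod_cast hnm
  exact (Nat.eq_of_mul_eq_mul_left (hw i) h2).symm

/-- uniqueness of the cusp of a cusp generator. -/
theorem conj_γ_inj (hw : ∀ i, 0 < C.w i) (hneg : ∀ ω : Ω, (-1 : SL(2, ℤ)) • ω = ω)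
    {i j : C.I} (δ : MulAction.stabilizer SL(2, ℤ) ω₀) (h : C.γ i = δ * C.γ j * δ⁻¹) : i = j := by
  have := conj_pow_γ_inj C hw hneg (i := i) (j := j) (n := 1) (m := 1) one_pos 1 δ
    (by rw [pow_one, pow_one, one_mul, inv_one, mul_one]; exact h)
  exact this.1

end SL2

section Two

variable {Ω₁ : Type*} [MulAction SL(2, ℤ) Ω₁] {ω₁ : Ω₁} (C₁ : CuspSys (T : SL(2, ℤ)) ω₁)
variable {Ω₂ : Type*} [MulAction SL(2, ℤ) Ω₂] {ω₂ : Ω₂} (C₂ : CuspSys (T : SL(2, ℤ)) ω₂)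

/-- one direction: `θ` maps each cusp generator of `Γ₁` to a conjugate of a cusp generator of
`Γ₂` (exponent `1`!). -/
theorem exists_conj_γ_of_posPar (hw₁ : ∀ i, 0 < C₁.w i) (hw₂ : ∀ i, 0 < C₂.w i)
    (hneg₁ : ∀ ω : Ω₁, (-1 : SL(2, ℤ)) • ω = ω)
    (θ : MulAction.stabilizer SL(2, ℤ) ω₁ ≃* MulAction.stabilizer SL(2, ℤ) ω₂)
    (hpos : ∀ γ : MulAction.stabilizer SL(2, ℤ) ω₁,
      IsPosPar (γ : SL(2, ℤ)) ↔ IsPosPar ((θ γ : MulAction.stabilizer SL(2, ℤ) ω₂) : SL(2, ℤ)))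
    (i : C₁.I) :
    ∃ (j : C₂.I) (δ : MulAction.stabilizer SL(2, ℤ) ω₂), θ (C₁.γ i) = δ * C₂.γ j * δ⁻¹ := by
  obtain ⟨j, δ, n, hn, h1⟩ :=
    exists_conj_pow_γ C₂ hw₂ (θ (C₁.γ i)) ((hpos _).mp (isPosPar_γ C₁ hw₁ i))
  have hpos2 : IsPosPar ((θ.symm (C₂.γ j) : MulAction.stabilizer SL(2, ℤ) ω₁) : SL(2, ℤ)) := by
    rw [hpos, MulEquiv.apply_symm_apply]
    exact isPosPar_γ C₂ hw₂ j
  obtain ⟨i', δ', n', hn', h2⟩ := exists_conj_pow_γ C₁ hw₁ (θ.symm (C₂.γ j)) hpos2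
  have h3 : C₁.γ i = (θ.symm δ * δ') * (C₁.γ i') ^ (n' * n) * (θ.symm δ * δ')⁻¹ := by
    calc C₁.γ i = θ.symm (θ (C₁.γ i)) := (MulEquiv.symm_apply_apply θ _).symm
      _ = θ.symm δ * (θ.symm (C₂.γ j)) ^ n * (θ.symm δ)⁻¹ := by
          rw [h1, map_mul, map_mul, map_pow, map_inv]
      _ = (θ.symm δ * δ') * (C₁.γ i') ^ (n' * n) * (θ.symm δ * δ')⁻¹ := by
          rw [h2, conj_pow, ← pow_mul]
          group
  have h4 := conj_pow_γ_inj C₁ hw₁ hneg₁ (n := 1) (m := n' * n) one_pos 1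
    (θ.symm δ * δ') (by rw [pow_one, one_mul, inv_one, mul_one]; exact h3)
  have hn1 : n = 1 := by
    have := h4.2
    exact Nat.eq_one_of_mul_eq_one_left this.symm
  refine ⟨j, δ, ?_⟩
  rw [h1, hn1, pow_one]

/-- the two cusp maps are inverse to each other. -/
theorem leftInverse_of_conj (hw₁ : ∀ i, 0 < C₁.w i) (hneg₁ : ∀ ω : Ω₁, (-1 : SL(2, ℤ)) • ω = ω)
    (θ : MulAction.stabilizer SL(2, ℤ) ω₁ →* MulAction.stabilizer SL(2, ℤ) ω₂)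
    (θ' : MulAction.stabilizer SL(2, ℤ) ω₂ →* MulAction.stabilizer SL(2, ℤ) ω₁)
    (hθ : ∀ x, θ' (θ x) = x) (σ : C₁.I → C₂.I) (ρ : C₂.I → C₁.I)
    (hσ : ∀ i, ∃ δ, θ (C₁.γ i) = δ * C₂.γ (σ i) * δ⁻¹)
    (hρ : ∀ j, ∃ δ, θ' (C₂.γ j) = δ * C₁.γ (ρ j) * δ⁻¹) (i : C₁.I) : ρ (σ i) = i := by
  obtain ⟨δ, h1⟩ := hσ i
  obtain ⟨δ', h2⟩ := hρ (σ i)
  have h3 : C₁.γ i = (θ' δ * δ') * C₁.γ (ρ (σ i)) * (θ' δ * δ')⁻¹ := by
    calc C₁.γ i = θ' (θ (C₁.γ i)) := (hθ _).symm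
      _ = θ' δ * θ' (C₂.γ (σ i)) * (θ' δ)⁻¹ := by rw [h1, map_mul, map_mul, map_inv]
      _ = _ := by rw [h2]; group
  exact (conj_γ_inj C₁ hw₁ hneg₁ _ h3).symm

/-- **cusp bijection from preservation of positive parabolic elements.** -/
theorem exists_cuspEquiv_of_posPar (hw₁ : ∀ i, 0 < C₁.w i) (hw₂ : ∀ i, 0 < C₂.w i)
    (hneg₁ : ∀ ω : Ω₁, (-1 : SL(2, ℤ)) • ω = ω) (hneg₂ : ∀ ω : Ω₂, (-1 : SL(2, ℤ)) • ω = ω)
    (θ : MulAction.stabilizer SL(2, ℤ) ω₁ ≃* MulAction.stabilizer SL(2, ℤ) ω₂)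
    (hpos : ∀ γ : MulAction.stabilizer SL(2, ℤ) ω₁,
      IsPosPar (γ : SL(2, ℤ)) ↔ IsPosPar ((θ γ : MulAction.stabilizer SL(2, ℤ) ω₂) : SL(2, ℤ))) :
    ∃ σ : C₁.I ≃ C₂.I, ∀ i, ∃ δ : MulAction.stabilizer SL(2, ℤ) ω₂,
      θ (C₁.γ i) = δ * C₂.γ (σ i) * δ⁻¹ := by
  have hpos' : ∀ γ : MulAction.stabilizer SL(2, ℤ) ω₂,
      IsPosPar (γ : SL(2, ℤ)) ↔
        IsPosPar ((θ.symm γ : MulAction.stabilizer SL(2, ℤ) ω₁) : SL(2, ℤ)) := by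
    intro γ
    rw [hpos (θ.symm γ), MulEquiv.apply_symm_apply]
  have h12 := exists_conj_γ_of_posPar C₁ C₂ hw₁ hw₂ hneg₁ θ hpos
  have h21 := exists_conj_γ_of_posPar C₂ C₁ hw₂ hw₁ hneg₂ θ.symm hpos'
  choose σ hσ using h12
  choose ρ hρ using h21
  have hl : Function.LeftInverse ρ σ :=
    leftInverse_of_conj C₁ C₂ hw₁ hneg₁ θ.toMonoidHom θ.symm.toMonoidHom
      (fun x => MulEquiv.symm_apply_apply θ x) σ ρ hσ hρ
  have hr : Function.RightInverse ρ σ :=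
    leftInverse_of_conj C₂ C₁ hw₂ hneg₂ θ.symm.toMonoidHom θ.toMonoidHom
      (fun x => MulEquiv.apply_symm_apply θ x) ρ σ hρ hσ
  exact ⟨⟨σ, ρ, hl, hr⟩, hσ⟩

/-- **[CUSP-BIJ] for `SL(2, ℤ)`.** An isomorphism `θ : Γ₁ ≃* Γ₂` which is intertwined by an integer
matrix of positive determinant (`θ` = conjugation by an element of `GL₂⁺(ℚ)`) carries the cusp
generators of `Γ₁` to conjugates of the cusp generators of `Γ₂`, bijectively on cusps.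
The conclusion is verbatim `(σ, hθ)` of `CuspSum22.form_comp_iso`. -/
theorem exists_cuspEquiv (hw₁ : ∀ i, 0 < C₁.w i) (hw₂ : ∀ i, 0 < C₂.w i)
    (hneg₁ : ∀ ω : Ω₁, (-1 : SL(2, ℤ)) • ω = ω) (hneg₂ : ∀ ω : Ω₂, (-1 : SL(2, ℤ)) • ω = ω)
    (θ : MulAction.stabilizer SL(2, ℤ) ω₁ ≃* MulAction.stabilizer SL(2, ℤ) ω₂)
    (α : Matrix (Fin 2) (Fin 2) ℤ) (hα : 0 < α.det)
    (hθ : ∀ γ : MulAction.stabilizer SL(2, ℤ) ω₁,
      α * ((γ : SL(2, ℤ)) : Matrix (Fin 2) (Fin 2) ℤ)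
        = (((θ γ : MulAction.stabilizer SL(2, ℤ) ω₂) : SL(2, ℤ)) : Matrix (Fin 2) (Fin 2) ℤ) * α) :
    ∃ σ : C₁.I ≃ C₂.I, ∀ i, ∃ δ : MulAction.stabilizer SL(2, ℤ) ω₂,
      θ (C₁.γ i) = δ * C₂.γ (σ i) * δ⁻¹ :=
  exists_cuspEquiv_of_posPar C₁ C₂ hw₁ hw₂ hneg₁ hneg₂ θ
    (fun γ => isPosPar_of_intertwine hα (hθ γ))

end Two

end Fermat.Agent.S41.PDComm92
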