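import Mathlib
import Fermat.Agent.S41.PDComm92.CuspClass

/-!
# S41 [PD-COMM]: invariance of the cusp-sum form under positive intertwiners, for `SL(2, ℤ)`

`form_comp_SL2` = helper22's `CuspSum22.form_comp_iso` for `G₁ = G₂ = SL(2, ℤ)`, `τ₁ = τ₂ = T`, with
the hypotheses `hgen`, `σ`, `hθ` discharged: `SL(2, ℤ)` is generated by elements of finite order, and
the cusp generators correspond under every isomorphism `θ : Γ₁ ≃* Γ₂` intertwined by an integer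
matrix of positive determinant (`exists_cuspEquiv`).
(helper92)
-/

set_option autoImplicit false

namespace Fermat.Agent.S41.PDComm92

open ModularGroup MulAction
open scoped MatrixGroups
open Fermat.Agent.S41.CuspSum22

theorem S_pow_four : (S : SL(2, ℤ)) ^ 4 = 1 := by
  ext i j
  fin_cases i <;> fin_cases j <;> simp [S, pow_succ, Matrix.mul_apply, Fin.sum_univ_two]

theorem ST_pow_six : ((S : SL(2, ℤ)) * T) ^ 6 = 1 := by
  ext i j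
  fin_cases i <;> fin_cases j <;> simp [S, T, pow_succ, Matrix.mul_apply, Fin.sum_univ_two]

/-- `SL(2, ℤ)` is generated by its elements of finite order. -/
theorem closure_isOfFinOrder_SL2 :
    Subgroup.closure {g : SL(2, ℤ) | IsOfFinOrder g} = ⊤ := by
  rw [eq_top_iff, ← SpecialLinearGroup.SL2Z_generators, Subgroup.closure_le]
  have hS : (S : SL(2, ℤ)) ∈ Subgroup.closure {g : SL(2, ℤ) | IsOfFinOrder g} :=
    Subgroup.subset_closure (isOfFinOrder_iff_pow_eq_one.mpr ⟨4, by norm_num, S_pow_four⟩)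
  have hST : (S : SL(2, ℤ)) * T ∈ Subgroup.closure {g : SL(2, ℤ) | IsOfFinOrder g} :=
    Subgroup.subset_closure (isOfFinOrder_iff_pow_eq_one.mpr ⟨6, by norm_num, ST_pow_six⟩)
  intro g hg
  rcases hg with rfl | rfl
  · exact hS
  · have : (T : SL(2, ℤ)) = S⁻¹ * (S * T) := by group
    rw [SetLike.mem_coe, this]
    exact Subgroup.mul_mem _ (Subgroup.inv_mem _ hS) hST

variable {R : Type*} [CommRing R]

/-- **[PD-COMM] for `SL(2, ℤ)`**: the total sum `∑ ω, K T ω` of a primitive `K` of the cup product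
of two crossed homs vanishing on `T` is the same for two finite transitive `SL(2, ℤ)`-sets (on which
`-1` acts trivially) whose stabilisers `Γ₁`, `Γ₂` are identified by an isomorphism `θ` which is
intertwined by an integer matrix of positive determinant and matches the evaluations of the crossed
homs. -/
theorem form_comp_SL2 [NoZeroSMulDivisors ℕ R]
    {Ω₁ : Type*} [MulAction SL(2, ℤ) Ω₁] [Fintype Ω₁] [MulAction.IsPretransitive SL(2, ℤ) Ω₁]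
    {Ω₂ : Type*} [MulAction SL(2, ℤ) Ω₂] [Fintype Ω₂]
    {ω₁ : Ω₁} (C₁ : CuspSys (T : SL(2, ℤ)) ω₁) (hw₁ : ∀ i, 0 < C₁.w i)
    (hneg₁ : ∀ ω : Ω₁, (-1 : SL(2, ℤ)) • ω = ω)
    {z₁ z₁' K₁ : SL(2, ℤ) → Ω₁ → R}
    (hK₁ : IsPrim z₁ z₁' K₁) (hz₁ : IsCoc z₁) (hz₁' : IsCoc z₁') (hτ₁ : z₁ T = 0)
    (hτ₁' : z₁' T = 0)
    {ω₂ : Ω₂} (C₂ : CuspSys (T : SL(2, ℤ)) ω₂) (hw₂ : ∀ i, 0 < C₂.w i)
    (hneg₂ : ∀ ω : Ω₂, (-1 : SL(2, ℤ)) • ω = ω)
    {z₂ z₂' K₂ : SL(2, ℤ) → Ω₂ → R}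
    (hK₂ : IsPrim z₂ z₂' K₂) (hz₂ : IsCoc z₂) (hz₂' : IsCoc z₂') (hτ₂ : z₂ T = 0)
    (hτ₂' : z₂' T = 0)
    (θ : MulAction.stabilizer SL(2, ℤ) ω₁ ≃* MulAction.stabilizer SL(2, ℤ) ω₂)
    (α : Matrix (Fin 2) (Fin 2) ℤ) (hα : 0 < α.det)
    (hθ : ∀ γ : MulAction.stabilizer SL(2, ℤ) ω₁,
      α * ((γ : SL(2, ℤ)) : Matrix (Fin 2) (Fin 2) ℤ)
        = (((θ γ : MulAction.stabilizer SL(2, ℤ) ω₂) : SL(2, ℤ)) : Matrix (Fin 2) (Fin 2) ℤ) * α)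
    (hφ : ∀ γ, ev ω₁ z₁ γ = ev ω₂ z₂ (θ γ)) (hψ : ∀ γ, ev ω₁ z₁' γ = ev ω₂ z₂' (θ γ)) :
    ∑ ω, K₁ T ω = ∑ ω, K₂ T ω := by
  obtain ⟨σ, hσ⟩ := exists_cuspEquiv C₁ C₂ hw₁ hw₂ hneg₁ hneg₂ θ α hα hθ
  exact form_comp_iso C₁ hK₁ hz₁ hz₁' hτ₁ hτ₁' closure_isOfFinOrder_SL2 C₂ hK₂ hz₂ hz₂' hτ₂ hτ₂'
    θ σ hσ hφ hψ

end Fermat.Agent.S41.PDComm92
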