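import Mathlib
import Fermat.Agent.S41.PDComm92.FormComp

/-!
# S41 [PD-COMM] (K2), `SL(2, ℤ)`-form: the generator formula in `CuspSum22` vocabulary

`G` acting on a finite set `Ω`, `act g m ω = m (g⁻¹ • ω)`, `IsCoc`, `IsPrim` as in
`CuspSum22/Core.lean`.  For crossed homs `z z'` with `z s = z t = m`, `z' s = z' t = m'`, and a primitive
`K` of `z ∪ z'`, if `K`, `z'` vanish at `s * s` and `t * t * t` then

  `6 * ∑ ω, K (s * t) ω = ∑ ω, m ω * m' ω + 2 * ∑ ω, m ω * m' (t⁻¹ • ω)`   (no division needed).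

For `G = SL(2, ℤ)`, `s = S`, `t = S * T` (`s * s = t * t * t = -1` acting trivially on `Ω`, `R`
torsion-free) this gives the value of `∑ ω, K T ω`, hence (by `CuspSum22.cuspSum_eq`) of the cusp sum
`∑ i, κ (C.γ i)` of EVERY primitive `κ` of `φ ∪ ψ` on `Γ`.
(helper92)
-/

set_option autoImplicit false

namespace Fermat.Agent.S41.PDComm92

open ModularGroup MulAction
open scoped MatrixGroups
open Fermat.Agent.S41.CuspSum22

section General

variable {G : Type*} [Group G] {Ω : Type*} [MulAction G Ω] [Fintype Ω] {R : Type*} [CommRing R]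
variable {s t : G} {z z' K : G → Ω → R} {m m' : Ω → R}

/-- the total sum, as an additive map. -/
def tot : (Ω → R) →+ R where
  toFun f := ∑ ω, f ω
  map_zero' := by simp
  map_add' f g := by simp [Finset.sum_add_distrib]

theorem tot_apply (f : Ω → R) : tot f = ∑ ω, f ω := rfl

theorem tot_act (g : G) (f : Ω → R) : tot (act g f) = tot f := sum_act g f

/-- (K2a) `2 ε (K s) = - ε (m m')`. -/
theorem two_mul_tot_K_s (hK : IsPrim z z' K) (hz' : IsCoc z')
    (hKss : K (s * s) = 0) (hz'ss : z' (s * s) = 0) (hzs : z s = m) (hz's : z' s = m') :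
    2 * tot (K s) = - tot (m * m') := by
  have h := hK s s
  rw [hKss, hzs, hz's] at h
  have hm' : act s m' = -m' := by
    have h1 := hz' s s
    rw [hz'ss, hz's] at h1
    exact (neg_eq_of_add_eq_zero_right h1.symm).symm
  rw [hm'] at h
  have h2 := congrArg (fun f : Ω → R => tot f) h
  beta_reduce at h2
  rw [map_zero, map_sub, map_add, tot_act, mul_neg, map_neg] at h2
  linear_combination -h2

/-- (K2b) `3 ε (K t) = ε (m * t m') - ε (m m')`. -/
theorem three_mul_tot_K_t (hK : IsPrim z z' K) (hz : IsCoc z) (hz' : IsCoc z')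
    (hKttt : K (t * t * t) = 0) (hz'ttt : z' (t * t * t) = 0) (hzt : z t = m) (hz't : z' t = m') :
    3 * tot (K t) = tot (m * act t m') - tot (m * m') := by
  have h1 := hK (t * t) t
  have h2 := hK t t
  have hz2 := hz t t
  rw [hKttt, h2, hz2, hzt, hz't] at h1
  have hsum : m' + act t m' + act (t * t) m' = 0 := by
    have h3 := hz' (t * t) t
    rw [hz'ttt, hz' t t, hz't] at h3
    exact h3.symm
  have htt : act (t * t) m' = -m' - act t m' := by
    have : act (t * t) m' = (m' + act t m' + act (t * t) m') - m' - act t m' := by ring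
    rw [this, hsum]; ring
  have h3 := congrArg (fun f : Ω → R => tot f) h1
  beta_reduce at h3
  have e1 : tot (act t m * act (t * t) m') = tot (m * act t m') := by
    have : act t m * act (t * t) m' = act t (m * act t m') := by
      rw [act_mulf, act_mul]
    rw [this, tot_act]
  have e2 : tot (m * act (t * t) m') = - tot (m * m') - tot (m * act t m') := by
    rw [htt, mul_sub, mul_neg, map_sub, map_neg]
  have expand : K t + act t (K t) - m * act t m' + act (t * t) (K t)
        - (m + act t m) * act (t * t) m'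
      = K t + act t (K t) + act (t * t) (K t) - m * act t m' - m * act (t * t) m'
        - act t m * act (t * t) m' := by ring
  rw [expand, map_zero, map_sub, map_sub, map_sub, map_add, map_add, tot_act, tot_act, e1, e2] at h3
  linear_combination -h3

/-- **(K2)**, division-free: `6 ε (K (s t)) = ε (m m') + 2 ε (m * t m')`. -/
theorem six_mul_tot_K_st (hK : IsPrim z z' K) (hz : IsCoc z) (hz' : IsCoc z')
    (hKss : K (s * s) = 0) (hz'ss : z' (s * s) = 0)
    (hKttt : K (t * t * t) = 0) (hz'ttt : z' (t * t * t) = 0)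
    (hzs : z s = m) (hzt : z t = m) (hz's : z' s = m') (hz't : z' t = m') :
    6 * tot (K (s * t)) = tot (m * m') + 2 * tot (m * act t m') := by
  have h := hK s t
  rw [hzs, hz't] at h
  have hm' : act s m' = -m' := by
    have h1 := hz' s s
    rw [hz'ss, hz's] at h1
    exact (neg_eq_of_add_eq_zero_right h1.symm).symm
  rw [hm'] at h
  have h1 := two_mul_tot_K_s hK hz' hKss hz'ss hzs hz's
  have h2 := three_mul_tot_K_t hK hz hz' hKttt hz'ttt hzt hz't
  have h3 := congrArg (fun f : Ω → R => tot f) h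
  beta_reduce at h3
  rw [map_sub, map_add, tot_act, mul_neg, map_neg] at h3
  rw [h3]
  linear_combination 3 * h1 + 2 * h2

end General

section SL2

variable {Ω : Type*} [MulAction SL(2, ℤ) Ω] {R : Type*} [CommRing R]
variable {z z' K : SL(2, ℤ) → Ω → R} {m m' : Ω → R}

theorem S_mul_S : (S : SL(2, ℤ)) * S = -1 := by
  ext i j
  fin_cases i <;> fin_cases j <;> simp [S, Matrix.mul_apply, Fin.sum_univ_two]

theorem ST_mul_ST_mul_ST : ((S : SL(2, ℤ)) * T) * (S * T) * (S * T) = -1 := by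
  ext i j
  fin_cases i <;> fin_cases j <;> simp [S, T, Matrix.mul_apply, Fin.sum_univ_two]

theorem neg_one_mul_neg_one : (-1 : SL(2, ℤ)) * (-1) = 1 := by
  rw [neg_mul_neg, one_mul]

theorem act_neg_one (hneg : ∀ ω : Ω, (-1 : SL(2, ℤ)) • ω = ω) (f : Ω → R) :
    act (-1 : SL(2, ℤ)) f = f := by
  funext ω
  rw [act_apply, neg_one_inv_smul hneg]

/-- a crossed hom vanishes at `-1` (torsion-free coefficients, `-1` acting trivially). -/
theorem IsCoc_neg_one [NoZeroSMulDivisors ℕ R] (hneg : ∀ ω : Ω, (-1 : SL(2, ℤ)) • ω = ω)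
    (hz : IsCoc z) : z (-1) = 0 := by
  have h := hz (-1) (-1)
  rw [neg_one_mul_neg_one, hz.map_one, act_neg_one hneg] at h
  funext ω
  have h1 := congrFun h ω
  simp only [Pi.zero_apply, Pi.add_apply] at h1
  have h2 : (2 : ℕ) • z (-1) ω = 0 := by rw [two_nsmul]; exact h1.symm
  rcases smul_eq_zero.mp h2 with h3 | h3
  · exact absurd h3 (by norm_num)
  · exact h3

/-- a primitive vanishes at `-1`. -/
theorem IsPrim_neg_one [NoZeroSMulDivisors ℕ R] (hneg : ∀ ω : Ω, (-1 : SL(2, ℤ)) • ω = ω)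
    (hK : IsPrim z z' K) (hz : IsCoc z) : K (-1) = 0 := by
  have h := hK (-1) (-1)
  rw [neg_one_mul_neg_one, hK.map_one hz, act_neg_one hneg, IsCoc_neg_one hneg hz, zero_mul,
    sub_zero] at h
  funext ω
  have h1 := congrFun h ω
  simp only [Pi.zero_apply, Pi.add_apply] at h1
  have h2 : (2 : ℕ) • K (-1) ω = 0 := by rw [two_nsmul]; exact h1.symm
  rcases smul_eq_zero.mp h2 with h3 | h3
  · exact absurd h3 (by norm_num)
  · exact h3

/-- a crossed hom with `z S = z (S * T)` vanishes at `T`. -/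
theorem IsCoc_T_eq_zero (hz : IsCoc z) (hzS : z S = m) (hzU : z (S * T) = m) : z T = 0 := by
  have h1 : z (S * T) = z S + act S (z T) := hz S T
  rw [hzS, hzU] at h1
  have h2 : act S (z T) = 0 := by
    have : m + act S (z T) = m + 0 := by rw [add_zero]; exact h1.symm
    exact add_left_cancel this
  have h3 := congrArg (act (S : SL(2, ℤ))⁻¹) h2
  rwa [← act_mul, inv_mul_cancel, act_one, act_zero] at h3

/-- `K T = K (S * (S * T))`. -/
theorem IsPrim_T_eq [NoZeroSMulDivisors ℕ R] (hneg : ∀ ω : Ω, (-1 : SL(2, ℤ)) • ω = ω)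
    (hK : IsPrim z z' K) (hz : IsCoc z) : K (S * (S * T)) = K T := by
  have h : (S : SL(2, ℤ)) * (S * T) = (-1) * T := by rw [← mul_assoc, S_mul_S]
  rw [h, hK, IsPrim_neg_one hneg hK hz, IsCoc_neg_one hneg hz, act_neg_one hneg, zero_mul, sub_zero,
    zero_add]

/-- **(K2) for `SL(2, ℤ)`**: the total sum of `K T`, for the crossed homs normalised by
`z S = z (S * T) = m`, `z' S = z' (S * T) = m'`. -/
theorem six_mul_sum_K_T [Fintype Ω] [NoZeroSMulDivisors ℕ R]
    (hneg : ∀ ω : Ω, (-1 : SL(2, ℤ)) • ω = ω)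
    (hK : IsPrim z z' K) (hz : IsCoc z) (hz' : IsCoc z')
    (hzS : z S = m) (hzU : z (S * T) = m) (hz'S : z' S = m') (hz'U : z' (S * T) = m') :
    6 * ∑ ω, K T ω = ∑ ω, m ω * m' ω + 2 * ∑ ω, m ω * m' ((S * T)⁻¹ • ω) := by
  have h := six_mul_tot_K_st (s := S) (t := S * T) hK hz hz'
    (by rw [S_mul_S]; exact IsPrim_neg_one hneg hK hz)
    (by rw [S_mul_S]; exact IsCoc_neg_one hneg hz')
    (by rw [ST_mul_ST_mul_ST]; exact IsPrim_neg_one hneg hK hz)
    (by rw [ST_mul_ST_mul_ST]; exact IsCoc_neg_one hneg hz') hzS hzU hz'S hz'U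
  rw [IsPrim_T_eq hneg hK hz] at h
  exact h

/-- **the cusp-sum formula for `SL(2, ℤ)`, intrinsic form**: for EVERY primitive `κ` of `φ ∪ ψ` on
`Γ = stabilizer ω₀` (`φ = ev z`, `ψ = ev z'`), six times the sum of `κ` over the cusp generators is
`⟨m, m'⟩ + 2 ⟨m, (S T) m'⟩`. -/
theorem six_mul_cuspSum [Fintype Ω] [MulAction.IsPretransitive SL(2, ℤ) Ω] [NoZeroSMulDivisors ℕ R]
    (hneg : ∀ ω : Ω, (-1 : SL(2, ℤ)) • ω = ω) {ω₀ : Ω} (C : CuspSys (T : SL(2, ℤ)) ω₀)
    (hK : IsPrim z z' K) (hz : IsCoc z) (hz' : IsCoc z')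
    (hzS : z S = m) (hzU : z (S * T) = m) (hz'S : z' S = m') (hz'U : z' (S * T) = m')
    {κ : MulAction.stabilizer SL(2, ℤ) ω₀ → R} (hκ : IsKappa (ev ω₀ z) (ev ω₀ z') κ) :
    6 * ∑ i, κ (C.γ i) = ∑ ω, m ω * m' ω + 2 * ∑ ω, m ω * m' ((S * T)⁻¹ • ω) := by
  rw [cuspSum_eq C hK hz hz' (IsCoc_T_eq_zero hz hzS hzU) (IsCoc_T_eq_zero hz' hz'S hz'U)
    closure_isOfFinOrder_SL2 hκ]
  exact six_mul_sum_K_T hneg hK hz hz' hzS hzU hz'S hz'U

end SL2

end Fermat.Agent.S41.PDComm92
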