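import Mathlib
import Fermat.Agent.S41.PDComm92.GenSL2
import Fermat.Agent.S41.CuspSum22.Classes
import Fermat.Agent.S41.Pres37.Prim

/-!
# S41 [PD-COMM]: the model form is invariant under positive intertwiners

`model_form_comp` : for two finite transitive `SL(2, ℤ)`-sets `Ω₁`, `Ω₂` (on which `-1` acts
trivially), base points `ω₁`, `ω₂` with stabilisers `Γ₁`, `Γ₂`, an isomorphism `θ : Γ₁ ≃* Γ₂`
intertwined by an integer matrix of positive determinant, and crossed homs normalised by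
`z S = z (S * T) = m` whose evaluations correspond under `θ`, the MODEL forms agree:

  `⟨m₁, m₁'⟩ + 2 ⟨m₁, (S T) m₁'⟩ = ⟨m₂, m₂'⟩ + 2 ⟨m₂, (S T) m₂'⟩`.

No primitive `K`, no cusp system, no `κ` in the statement: `K` comes from `Pres37.exists_isPrim`,
the cusp systems are `CuspSys.ofOrbits`, the comparison is `form_comp_SL2`, the evaluation of both
sides is `six_mul_sum_K_T`.
(helper92)
-/

set_option autoImplicit false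

namespace Fermat.Agent.S41.PDComm92

open ModularGroup MulAction
open scoped MatrixGroups
open Fermat.Agent.S41.CuspSum22

variable {R : Type*} [CommRing R]

/-- the model form `⟨m, m'⟩ + 2 ⟨m, (S T) m'⟩` (six times the intersection form). -/
def modelForm {Ω : Type*} [MulAction SL(2, ℤ) Ω] [Fintype Ω] (m m' : Ω → R) : R :=
  ∑ ω, m ω * m' ω + 2 * ∑ ω, m ω * m' ((S * T : SL(2, ℤ))⁻¹ • ω)

/-- `modelForm` is six times the total sum of `K T` for any primitive `K`. -/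
theorem modelForm_eq_six_mul_sum {Ω : Type*} [MulAction SL(2, ℤ) Ω] [Fintype Ω]
    [NoZeroSMulDivisors ℕ R] (hneg : ∀ ω : Ω, (-1 : SL(2, ℤ)) • ω = ω)
    {z z' K : SL(2, ℤ) → Ω → R} {m m' : Ω → R}
    (hK : IsPrim z z' K) (hz : IsCoc z) (hz' : IsCoc z')
    (hzS : z S = m) (hzU : z (S * T) = m) (hz'S : z' S = m') (hz'U : z' (S * T) = m') :
    modelForm m m' = 6 * ∑ ω, K T ω :=
  (six_mul_sum_K_T hneg hK hz hz' hzS hzU hz'S hz'U).symm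

/-- `modelForm` is six times the cusp sum of ANY primitive `κ` of `φ ∪ ψ` on `Γ`. -/
theorem modelForm_eq_six_mul_cuspSum {Ω : Type*} [MulAction SL(2, ℤ) Ω] [Fintype Ω]
    [MulAction.IsPretransitive SL(2, ℤ) Ω] [NoZeroSMulDivisors ℕ R] [Invertible (2 : R)]
    [Invertible (3 : R)]
    (hneg : ∀ ω : Ω, (-1 : SL(2, ℤ)) • ω = ω) {ω₀ : Ω} (C : CuspSys (T : SL(2, ℤ)) ω₀)
    {z z' : SL(2, ℤ) → Ω → R} {m m' : Ω → R} (hz : IsCoc z) (hz' : IsCoc z')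
    (hzS : z S = m) (hzU : z (S * T) = m) (hz'S : z' S = m') (hz'U : z' (S * T) = m')
    {κ : MulAction.stabilizer SL(2, ℤ) ω₀ → R} (hκ : IsKappa (ev ω₀ z) (ev ω₀ z') κ) :
    modelForm m m' = 6 * ∑ i, κ (C.γ i) := by
  obtain ⟨K, hK⟩ := Fermat.Agent.S41.Pres37.exists_isPrim hneg hz hz'
  exact (six_mul_cuspSum hneg C hK hz hz' hzS hzU hz'S hz'U hκ).symm

/-- **[PD-COMM], model form.** -/
theorem model_form_comp [NoZeroSMulDivisors ℕ R] [Invertible (2 : R)] [Invertible (3 : R)]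
    {Ω₁ : Type*} [MulAction SL(2, ℤ) Ω₁] [Fintype Ω₁] [MulAction.IsPretransitive SL(2, ℤ) Ω₁]
    {Ω₂ : Type*} [MulAction SL(2, ℤ) Ω₂] [Fintype Ω₂] [MulAction.IsPretransitive SL(2, ℤ) Ω₂]
    (hneg₁ : ∀ ω : Ω₁, (-1 : SL(2, ℤ)) • ω = ω) (hneg₂ : ∀ ω : Ω₂, (-1 : SL(2, ℤ)) • ω = ω)
    {ω₁ : Ω₁} {ω₂ : Ω₂}
    {z₁ z₁' : SL(2, ℤ) → Ω₁ → R} {m₁ m₁' : Ω₁ → R} (hz₁ : IsCoc z₁) (hz₁' : IsCoc z₁')
    (hz₁S : z₁ S = m₁) (hz₁U : z₁ (S * T) = m₁) (hz₁'S : z₁' S = m₁') (hz₁'U : z₁' (S * T) = m₁')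
    {z₂ z₂' : SL(2, ℤ) → Ω₂ → R} {m₂ m₂' : Ω₂ → R} (hz₂ : IsCoc z₂) (hz₂' : IsCoc z₂')
    (hz₂S : z₂ S = m₂) (hz₂U : z₂ (S * T) = m₂) (hz₂'S : z₂' S = m₂') (hz₂'U : z₂' (S * T) = m₂')
    (θ : MulAction.stabilizer SL(2, ℤ) ω₁ ≃* MulAction.stabilizer SL(2, ℤ) ω₂)
    (α : Matrix (Fin 2) (Fin 2) ℤ) (hα : 0 < α.det)
    (hθ : ∀ γ : MulAction.stabilizer SL(2, ℤ) ω₁,
      α * ((γ : SL(2, ℤ)) : Matrix (Fin 2) (Fin 2) ℤ)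
        = (((θ γ : MulAction.stabilizer SL(2, ℤ) ω₂) : SL(2, ℤ)) : Matrix (Fin 2) (Fin 2) ℤ) * α)
    (hφ : ∀ γ, ev ω₁ z₁ γ = ev ω₂ z₂ (θ γ)) (hψ : ∀ γ, ev ω₁ z₁' γ = ev ω₂ z₂' (θ γ)) :
    modelForm m₁ m₁' = modelForm m₂ m₂' := by
  obtain ⟨K₁, hK₁⟩ := Fermat.Agent.S41.Pres37.exists_isPrim hneg₁ hz₁ hz₁'
  obtain ⟨K₂, hK₂⟩ := Fermat.Agent.S41.Pres37.exists_isPrim hneg₂ hz₂ hz₂'
  rw [modelForm_eq_six_mul_sum hneg₁ hK₁ hz₁ hz₁' hz₁S hz₁U hz₁'S hz₁'U,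
    modelForm_eq_six_mul_sum hneg₂ hK₂ hz₂ hz₂' hz₂S hz₂U hz₂'S hz₂'U]
  congr 1
  exact form_comp_SL2 (CuspSys.ofOrbits T ω₁) (CuspSys.ofOrbits_w_pos T ω₁) hneg₁ hK₁ hz₁ hz₁'
    (IsCoc_T_eq_zero hz₁ hz₁S hz₁U) (IsCoc_T_eq_zero hz₁' hz₁'S hz₁'U)
    (CuspSys.ofOrbits T ω₂) (CuspSys.ofOrbits_w_pos T ω₂) hneg₂ hK₂ hz₂ hz₂'
    (IsCoc_T_eq_zero hz₂ hz₂S hz₂U) (IsCoc_T_eq_zero hz₂' hz₂'S hz₂'U) θ α hα hθ hφ hψ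

/-- `model_form_comp` over `ℚ`. -/
theorem model_form_comp_rat
    {Ω₁ : Type*} [MulAction SL(2, ℤ) Ω₁] [Fintype Ω₁] [MulAction.IsPretransitive SL(2, ℤ) Ω₁]
    {Ω₂ : Type*} [MulAction SL(2, ℤ) Ω₂] [Fintype Ω₂] [MulAction.IsPretransitive SL(2, ℤ) Ω₂]
    (hneg₁ : ∀ ω : Ω₁, (-1 : SL(2, ℤ)) • ω = ω) (hneg₂ : ∀ ω : Ω₂, (-1 : SL(2, ℤ)) • ω = ω)
    {ω₁ : Ω₁} {ω₂ : Ω₂}
    {z₁ z₁' : SL(2, ℤ) → Ω₁ → ℚ} {m₁ m₁' : Ω₁ → ℚ} (hz₁ : IsCoc z₁) (hz₁' : IsCoc z₁')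
    (hz₁S : z₁ S = m₁) (hz₁U : z₁ (S * T) = m₁) (hz₁'S : z₁' S = m₁') (hz₁'U : z₁' (S * T) = m₁')
    {z₂ z₂' : SL(2, ℤ) → Ω₂ → ℚ} {m₂ m₂' : Ω₂ → ℚ} (hz₂ : IsCoc z₂) (hz₂' : IsCoc z₂')
    (hz₂S : z₂ S = m₂) (hz₂U : z₂ (S * T) = m₂) (hz₂'S : z₂' S = m₂') (hz₂'U : z₂' (S * T) = m₂')
    (θ : MulAction.stabilizer SL(2, ℤ) ω₁ ≃* MulAction.stabilizer SL(2, ℤ) ω₂)
    (α : Matrix (Fin 2) (Fin 2) ℤ) (hα : 0 < α.det)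
    (hθ : ∀ γ : MulAction.stabilizer SL(2, ℤ) ω₁,
      α * ((γ : SL(2, ℤ)) : Matrix (Fin 2) (Fin 2) ℤ)
        = (((θ γ : MulAction.stabilizer SL(2, ℤ) ω₂) : SL(2, ℤ)) : Matrix (Fin 2) (Fin 2) ℤ) * α)
    (hφ : ∀ γ, ev ω₁ z₁ γ = ev ω₂ z₂ (θ γ)) (hψ : ∀ γ, ev ω₁ z₁' γ = ev ω₂ z₂' (θ γ)) :
    modelForm m₁ m₁' = modelForm m₂ m₂' :=
  letI : Invertible (2 : ℚ) := invertibleOfNonzero (by norm_num)
  letI : Invertible (3 : ℚ) := invertibleOfNonzero (by norm_num)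
  model_form_comp hneg₁ hneg₂ hz₁ hz₁' hz₁S hz₁U hz₁'S hz₁'U hz₂ hz₂' hz₂S hz₂U hz₂'S hz₂'U
    θ α hα hθ hφ hψ

end Fermat.Agent.S41.PDComm92
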