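import Mathlib
import Fermat.Agent.S41.PDCore84.Inst
import Fermat.Agent.S41.PDComm92.ModelComp

/-!
# S41 [PD-COMM]: `B_conj` for helper84's intersection form `PDCore84.B`

* `six_mul_form_J_J` : in the abstract setting `S : PDCore84.Setting G Ω`,
  `6 * S.form (S.J x) (S.J x') = ip x x' + 2 * ip x (act S.u x')` (the value of the form on two
  splice classes is the "model form" of `PDComm92.ModelComp`);
* `B_conj` : for two finite-index subgroups `Γ₁ Γ₂ ∋ -1` of `SL(2, ℤ)`, an isomorphism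
  `θ : Γ₁ ≃* Γ₂` intertwined by an integer matrix of positive determinant (`α * γ = θ γ * α`, i.e.
  `θ` is conjugation by an element of `GL₂⁺(ℚ)`) is an ISOMETRY of the intersection forms:
  `B hneg₁ (y ∘ θ) (y' ∘ θ) = B hneg₂ y y'`.
(helper92)
-/

set_option autoImplicit false

namespace Fermat.Agent.S41.PDComm92

open ModularGroup MulAction
open scoped MatrixGroups
open ModularCurve.Period
open Fermat.Agent.S41.PDCore84

section Abstract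

variable {G : Type*} [Group G] {Ω : Type*} [MulAction G Ω] (S : Setting G Ω)
variable [MulAction.IsPretransitive G Ω] [Fintype Ω] [DecidableEq Ω]

/-- the form on two splice classes is (one sixth of) the model form. -/
theorem six_mul_form_J_J (x x' : S.X) :
    6 * S.form (S.J x) (S.J x')
      = ip (x : Ω → ℤ) (x' : Ω → ℤ) + 2 * ip (x : Ω → ℤ) (PDCore84.act S.u (x' : Ω → ℤ)) := by
  obtain ⟨a', b', ha', hb'⟩ := S.exists_ab x'
  rw [S.form_J_J x x' ha' hb', ip_sub_right]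
  set X : Ω → ℤ := (x : Ω → ℤ) with hXdef
  have hX1 : PDCore84.act S.s X = -X := S.act_s_of_mem_X x.2
  have hX2 : X + PDCore84.act S.u X + PDCore84.act S.u (PDCore84.act S.u X) = 0 := x.2.2
  -- `A = ip X x' = -2 ip X a'`
  have hA1 : ip X (x' : Ω → ℤ) = -2 * ip X a' := by
    rw [← ha', ip_sub_right, ip_act_right, S.act_s_inv, hX1, ip_neg_left]
    ring
  -- `A = r - p`
  have hA2 : ip X (x' : Ω → ℤ)
      = ip (PDCore84.act S.u (PDCore84.act S.u X)) b' - ip X b' := by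
    rw [← hb', ip_sub_right, ip_act_right, S.act_u_inv]
  -- `B = q - r`
  have hB : ip X (PDCore84.act S.u (x' : Ω → ℤ))
      = ip (PDCore84.act S.u X) b' - ip (PDCore84.act S.u (PDCore84.act S.u X)) b' := by
    rw [← hb', map_sub, ip_sub_right, ip_act_right, S.act_u_inv, ip_act_right, S.act_u_inv,
      ip_act_right, S.act_u_inv, S.act_u_u_u]
  have hsum : ip X b' + ip (PDCore84.act S.u X) b'
      + ip (PDCore84.act S.u (PDCore84.act S.u X)) b' = 0 := by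
    rw [← ip_add_left, ← ip_add_left, hX2, ip_zero_left]
  linear_combination 3 * hA1 + (-4) * hA2 + (-2) * hB + (-2) * hsum

end Abstract

section Concrete

variable {Γ₁ Γ₂ : Subgroup SL(2, ℤ)} [Γ₁.FiniteIndex] [Γ₂.FiniteIndex]

/-- the rational splice cocycle attached to `ξ ∈ X`. -/
noncomputable def splQ {Γ : Subgroup SL(2, ℤ)} (hneg : (-1 : SL(2, ℤ)) ∈ Γ)
    (ξ : (sl2Setting Γ hneg).X) : SL(2, ℤ) → SL(2, ℤ) ⧸ Γ → ℚ :=
  fun g ω => (((sl2Setting Γ hneg).spl ξ g ω : ℤ) : ℚ)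

theorem isCoc_splQ {Γ : Subgroup SL(2, ℤ)} (hneg : (-1 : SL(2, ℤ)) ∈ Γ)
    (ξ : (sl2Setting Γ hneg).X) : CuspSum22.IsCoc (splQ hneg ξ) := by
  intro g h
  funext ω
  have h1 := congrFun ((sl2Setting Γ hneg).spl_isCocycle ξ g h) ω
  simp only [Pi.add_apply, PDCore84.act_apply] at h1
  simp only [splQ, Pi.add_apply, CuspSum22.act_apply, h1, Int.cast_add]

theorem splQ_S {Γ : Subgroup SL(2, ℤ)} (hneg : (-1 : SL(2, ℤ)) ∈ Γ)
    (ξ : (sl2Setting Γ hneg).X) :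
    splQ hneg ξ S = fun ω => (((ξ : SL(2, ℤ) ⧸ Γ → ℤ) ω : ℤ) : ℚ) := by
  funext ω
  have h1 := congrFun ((sl2Setting Γ hneg).spl_s ξ) ω
  simp only [splQ]
  exact congrArg (Int.cast : ℤ → ℚ) h1

theorem splQ_ST {Γ : Subgroup SL(2, ℤ)} (hneg : (-1 : SL(2, ℤ)) ∈ Γ)
    (ξ : (sl2Setting Γ hneg).X) :
    splQ hneg ξ (S * T) = fun ω => (((ξ : SL(2, ℤ) ⧸ Γ → ℤ) ω : ℤ) : ℚ) := by
  funext ω
  have h1 := congrFun ((sl2Setting Γ hneg).spl_u ξ) ω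
  simp only [splQ]
  exact congrArg (Int.cast : ℤ → ℚ) h1

/-- evaluation of the splice cocycle at the base point = the class `dictJ ξ`. -/
theorem dictJ_apply {Γ : Subgroup SL(2, ℤ)} [Γ.FiniteIndex] (hneg : (-1 : SL(2, ℤ)) ∈ Γ)
    (ξ : (sl2Setting Γ hneg).X) (γ : Γ) :
    ((dictJ hneg ξ : parabolicHoms ℤ Γ ℤ) : Additive Γ →+ ℤ) (Additive.ofMul γ)
      = (sl2Setting Γ hneg).spl ξ (γ : SL(2, ℤ)) (PDInst51.base Γ) := rfl

/-- the model form of the rational casts is the cast of the integral model form. -/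
theorem modelForm_cast {Γ : Subgroup SL(2, ℤ)} [Γ.FiniteIndex] (hneg : (-1 : SL(2, ℤ)) ∈ Γ)
    (ξ ξ' : (sl2Setting Γ hneg).X) :
    modelForm (fun ω => (((ξ : SL(2, ℤ) ⧸ Γ → ℤ) ω : ℤ) : ℚ))
        (fun ω => (((ξ' : SL(2, ℤ) ⧸ Γ → ℤ) ω : ℤ) : ℚ))
      = ((6 * B hneg (dictJ hneg ξ) (dictJ hneg ξ') : ℤ) : ℚ) := by
  have h1 : B hneg (dictJ hneg ξ) (dictJ hneg ξ')
      = (sl2Setting Γ hneg).form ((sl2Setting Γ hneg).J ξ) ((sl2Setting Γ hneg).J ξ') := by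
    rw [form_eq_B]; rfl
  rw [h1, six_mul_form_J_J]
  simp only [modelForm, ip, PDCore84.act_apply, Int.cast_add, Int.cast_mul, Int.cast_sum,
    Int.cast_ofNat]
  rfl

/-- **`B_conj`: conjugation by `GL₂⁺(ℚ)` is an isometry of the intersection forms.** -/
theorem B_conj (hneg₁ : (-1 : SL(2, ℤ)) ∈ Γ₁) (hneg₂ : (-1 : SL(2, ℤ)) ∈ Γ₂)
    (θ : Γ₁ ≃* Γ₂) (α : Matrix (Fin 2) (Fin 2) ℤ) (hα : 0 < α.det)
    (hθ : ∀ γ : Γ₁, α * ((γ : SL(2, ℤ)) : Matrix (Fin 2) (Fin 2) ℤ)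
      = (((θ γ : Γ₂) : SL(2, ℤ)) : Matrix (Fin 2) (Fin 2) ℤ) * α)
    (x x' : parabolicHoms ℤ Γ₁ ℤ) (y y' : parabolicHoms ℤ Γ₂ ℤ)
    (hx : ∀ γ : Γ₁, (x : Additive Γ₁ →+ ℤ) (Additive.ofMul γ)
      = (y : Additive Γ₂ →+ ℤ) (Additive.ofMul (θ γ)))
    (hx' : ∀ γ : Γ₁, (x' : Additive Γ₁ →+ ℤ) (Additive.ofMul γ)
      = (y' : Additive Γ₂ →+ ℤ) (Additive.ofMul (θ γ))) :
    B hneg₁ x x' = B hneg₂ y y' := by
  obtain ⟨ξ₁, rfl⟩ := dictJ_surjective hneg₁ x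
  obtain ⟨ξ₁', rfl⟩ := dictJ_surjective hneg₁ x'
  obtain ⟨ξ₂, rfl⟩ := dictJ_surjective hneg₂ y
  obtain ⟨ξ₂', rfl⟩ := dictJ_surjective hneg₂ y'
  -- the isomorphism of the stabilisers
  let θ' : MulAction.stabilizer SL(2, ℤ) (PDInst51.base Γ₁)
      ≃* MulAction.stabilizer SL(2, ℤ) (PDInst51.base Γ₂) :=
    (PDInst51.stabEquiv Γ₁).trans (θ.trans (PDInst51.stabEquiv Γ₂).symm)
  have hθ' : ∀ γ : MulAction.stabilizer SL(2, ℤ) (PDInst51.base Γ₁),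
      α * ((γ : SL(2, ℤ)) : Matrix (Fin 2) (Fin 2) ℤ)
        = (((θ' γ : MulAction.stabilizer SL(2, ℤ) (PDInst51.base Γ₂)) : SL(2, ℤ)) :
            Matrix (Fin 2) (Fin 2) ℤ) * α := fun γ => hθ (PDInst51.stabEquiv Γ₁ γ)
  have hφ : ∀ γ, CuspSum22.ev (PDInst51.base Γ₁) (splQ hneg₁ ξ₁) γ
      = CuspSum22.ev (PDInst51.base Γ₂) (splQ hneg₂ ξ₂) (θ' γ) := by
    intro γ
    have := hx (PDInst51.stabEquiv Γ₁ γ)
    rw [dictJ_apply, dictJ_apply] at this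
    simp only [CuspSum22.ev_apply, splQ]
    exact congrArg (Int.cast : ℤ → ℚ) this
  have hψ : ∀ γ, CuspSum22.ev (PDInst51.base Γ₁) (splQ hneg₁ ξ₁') γ
      = CuspSum22.ev (PDInst51.base Γ₂) (splQ hneg₂ ξ₂') (θ' γ) := by
    intro γ
    have := hx' (PDInst51.stabEquiv Γ₁ γ)
    rw [dictJ_apply, dictJ_apply] at this
    simp only [CuspSum22.ev_apply, splQ]
    exact congrArg (Int.cast : ℤ → ℚ) this
  have hmain := model_form_comp_rat (PDInst51.neg_one_smul51 hneg₁) (PDInst51.neg_one_smul51 hneg₂)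
    (isCoc_splQ hneg₁ ξ₁) (isCoc_splQ hneg₁ ξ₁') (splQ_S hneg₁ ξ₁) (splQ_ST hneg₁ ξ₁)
    (splQ_S hneg₁ ξ₁') (splQ_ST hneg₁ ξ₁')
    (isCoc_splQ hneg₂ ξ₂) (isCoc_splQ hneg₂ ξ₂') (splQ_S hneg₂ ξ₂) (splQ_ST hneg₂ ξ₂)
    (splQ_S hneg₂ ξ₂') (splQ_ST hneg₂ ξ₂') θ' α hα hθ' hφ hψ
  rw [modelForm_cast, modelForm_cast] at hmain
  have h6 : 6 * B hneg₁ (dictJ hneg₁ ξ₁) (dictJ hneg₁ ξ₁')
      = 6 * B hneg₂ (dictJ hneg₂ ξ₂) (dictJ hneg₂ ξ₂') := by exact_mod_cast hmain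
  exact mul_left_cancel₀ (by norm_num : (6 : ℤ) ≠ 0) h6

end Concrete

end Fermat.Agent.S41.PDComm92
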