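import Mathlib
import Fermat.Agent.S41.PDComm92.BConj
import Fermat.Agent.S41.New63.New
import Fermat.Agent.S41.Hecke15.Degen

/-!
# S41 [PD-COMM]: the Atkin–Lehner operator `W` is an isometry of the intersection form

`wConj` : the automorphism `γ ↦ w γ w⁻¹` of `Γ₀(N q)` (`w = wAL`, helper63's Atkin–Lehner matrix), as a
`MulEquiv`, with `WOp φ = φ ∘ wConj`;
`B_WOp` : `B (W φ) (W ψ) = B φ ψ` for helper84's `PDCore84.B` at level `N q`;
`B_WOp_left` : `B (W φ) ψ = B φ (W ψ)`;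
and the formal consequences used by the assembly: `adj₂_of_adj₁`, `selfAdj_of_adj₁`.
(helper92)
-/

set_option autoImplicit false
set_option linter.unusedSectionVars false

namespace Fermat.Agent.S41.PDComm92

open Matrix.SpecialLinearGroup CongruenceSubgroup ModularForm
open scoped MatrixGroups
open ModularCurve.Period
open Fermat.Agent.S41.PDCore84 Fermat.Agent.S41.New63 Fermat.Agent.S41.Hecke15

section Formal

variable {L L' : Type*}

/-- `hadj₂` from `hadj₁` and an isometric involution `W` of `B'`. -/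
theorem adj₂_of_adj₁ (B : L → L → ℤ) (B' : L' → L' → ℤ) (α₁ : L → L') (β₁ : L' → L) (W : L' → L')
    (hadj₁ : ∀ x z, B' (α₁ x) z = B x (β₁ z)) (hW : ∀ a b, B' (W a) (W b) = B' a b)
    (hWW : ∀ a, W (W a) = a) (x : L) (z : L') : B' (W (α₁ x)) z = B x (β₁ (W z)) := by
  rw [← hadj₁, ← hW (α₁ x) (W z), hWW]

/-- self-adjointness of `T = β₁ ∘ W ∘ α₁` from `hadj₁`, an isometric involution `W` of `B'`, and
antisymmetry. -/
theorem selfAdj_of_adj₁ (B : L → L → ℤ) (B' : L' → L' → ℤ) (α₁ : L → L') (β₁ : L' → L)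
    (W : L' → L') (hadj₁ : ∀ x z, B' (α₁ x) z = B x (β₁ z))
    (hW : ∀ a b, B' (W a) (W b) = B' a b) (hWW : ∀ a, W (W a) = a)
    (hB : ∀ x y, B x y = - B y x) (hB' : ∀ a b, B' a b = - B' b a) (x y : L) :
    B (β₁ (W (α₁ x))) y = B x (β₁ (W (α₁ y))) := by
  rw [hB, ← hadj₁, ← hB', ← hadj₁, ← hW (α₁ x) (W (α₁ y)), hWW]

end Formal

section AL

variable (N q : ℕ) [hqp : Fact q.Prime] (x y : ℤ) (hxy : (q : ℤ) * x - N * y = 1)

/-- the conjugate `w γ w⁻¹ ∈ Γ₀(N q)` of `γ ∈ Γ₀(N q)`. -/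
noncomputable def wConjFun (γ : Gamma0 (N * q)) : Gamma0 (N * q) :=
  (exists_wAL_conj N q x y hxy γ).choose

theorem wConjFun_spec (γ : Gamma0 (N * q)) :
    wAL N q x y (q_ne_zero63 q) hxy * eGL63 (N * q) γ
      = eGL63 (N * q) (wConjFun N q x y hxy γ) * wAL N q x y (q_ne_zero63 q) hxy :=
  (exists_wAL_conj N q x y hxy γ).choose_spec

theorem wConjFun_unique (γ c : Gamma0 (N * q))
    (h : wAL N q x y (q_ne_zero63 q) hxy * eGL63 (N * q) γ
      = eGL63 (N * q) c * wAL N q x y (q_ne_zero63 q) hxy) :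
    wConjFun N q x y hxy γ = c := by
  apply eGL63_injective
  have h1 := wConjFun_spec N q x y hxy γ
  rw [h] at h1
  exact (mul_right_cancel h1).symm

/-- conjugation by `w` as a monoid hom. -/
noncomputable def wConjHom : Gamma0 (N * q) →* Gamma0 (N * q) where
  toFun := wConjFun N q x y hxy
  map_one' := by
    apply wConjFun_unique
    rw [map_one, mul_one, one_mul]
  map_mul' a b := by
    apply wConjFun_unique
    rw [map_mul, map_mul, ← mul_assoc, wConjFun_spec, mul_assoc, wConjFun_spec, mul_assoc]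

theorem wConjHom_apply (γ : Gamma0 (N * q)) :
    wConjHom N q x y hxy γ = wConjFun N q x y hxy γ := rfl

/-- `w² = q γ₀` : conjugation by `w` twice is conjugation by `γ₀ ∈ Γ₀(N q)`. -/
theorem exists_wConj_wConj :
    ∃ γ₀ : Gamma0 (N * q), ∀ γ : Gamma0 (N * q),
      wConjFun N q x y hxy (wConjFun N q x y hxy γ) = γ₀ * γ * γ₀⁻¹ := by
  obtain ⟨g₀, h10, hsq⟩ := wAL_sq N q x y (q_ne_zero63 q) hxy
  have hg₀ : g₀ ∈ Gamma0 (N * q) := by
    rw [mem_Gamma0_iff_dvd, h10]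
    exact ⟨x + 1, by push_cast; ring⟩
  refine ⟨⟨g₀, hg₀⟩, fun γ => ?_⟩
  apply wConjFun_unique
  -- `w e(c₁) = e(γ₀ γ γ₀⁻¹) w` where `c₁ = wConj γ`
  have h1 := wConjFun_spec N q x y hxy γ
  set w := wAL N q x y (q_ne_zero63 q) hxy with hw
  set s := scalarGL (q : ℝ) (by exact_mod_cast q_ne_zero63 q) with hs
  have hsc : ∀ g : GL (Fin 2) ℝ, s * g = g * s := scalarGL_central _ _
  have hg₀e : eGL63 (N * q) ⟨g₀, hg₀⟩ = mapGL ℝ g₀ := rfl
  apply mul_right_cancel (b := w)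
  calc w * eGL63 (N * q) (wConjFun N q x y hxy γ) * w
      = w * (eGL63 (N * q) (wConjFun N q x y hxy γ) * w) := by rw [mul_assoc]
    _ = w * w * eGL63 (N * q) γ := by rw [← h1, mul_assoc]
    _ = s * (mapGL ℝ g₀ * eGL63 (N * q) γ) := by rw [hsq, mul_assoc]
    _ = mapGL ℝ g₀ * eGL63 (N * q) γ * s := by rw [hsc]
    _ = mapGL ℝ g₀ * eGL63 (N * q) γ * (mapGL ℝ g₀)⁻¹ * (s * mapGL ℝ g₀) := by
        rw [hsc (mapGL ℝ g₀)]; group
    _ = eGL63 (N * q) (⟨g₀, hg₀⟩ * γ * ⟨g₀, hg₀⟩⁻¹) * w * w := by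
        rw [map_mul, map_mul, map_inv, hg₀e, mul_assoc _ w w, hsq]

theorem wConjHom_bijective : Function.Bijective (wConjHom N q x y hxy) := by
  obtain ⟨γ₀, h⟩ := exists_wConj_wConj N q x y hxy
  have hcomp : (wConjHom N q x y hxy) ∘ (wConjHom N q x y hxy) = fun γ => γ₀ * γ * γ₀⁻¹ :=
    funext h
  have hbij : Function.Bijective (fun γ : Gamma0 (N * q) => γ₀ * γ * γ₀⁻¹) :=
    (MulAut.conj γ₀).bijective
  rw [← hcomp] at hbij
  exact ⟨Function.Injective.of_comp hbij.1, Function.Surjective.of_comp hbij.2⟩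

/-- **conjugation by the Atkin–Lehner matrix**, as an automorphism of `Γ₀(N q)`. -/
noncomputable def wConj : Gamma0 (N * q) ≃* Gamma0 (N * q) :=
  MulEquiv.ofBijective (wConjHom N q x y hxy) (wConjHom_bijective N q x y hxy)

theorem wConj_apply (γ : Gamma0 (N * q)) : wConj N q x y hxy γ = wConjFun N q x y hxy γ := rfl

/-- `W φ = φ ∘ wConj`. -/
theorem WOp_eq_comp_wConj {A : Type*} [AddCommGroup A] (φ : Additive (Gamma0 (N * q)) →+ A)
    (γ : Gamma0 (N * q)) :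
    WOp N q x y hxy φ (Additive.ofMul γ) = φ (Additive.ofMul (wConj N q x y hxy γ)) :=
  WOp_apply N q x y hxy φ γ _ (wConjFun_spec N q x y hxy γ)

/-- the integral Atkin–Lehner matrix. -/
def wInt : Matrix (Fin 2) (Fin 2) ℤ := !![(q : ℤ) * x, y; (N : ℤ) * q, (q : ℤ)]

include hxy in
theorem wInt_det : (wInt N q x y).det = q := by
  rw [wInt, Matrix.det_fin_two_of]
  linear_combination (q : ℤ) * hxy

/-- the integral Atkin–Lehner matrix intertwines `γ` and `wConj γ`. -/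
theorem wInt_intertwine (γ : Gamma0 (N * q)) :
    wInt N q x y * ((γ : SL(2, ℤ)) : Matrix (Fin 2) (Fin 2) ℤ)
      = (((wConj N q x y hxy γ : Gamma0 (N * q)) : SL(2, ℤ)) : Matrix (Fin 2) (Fin 2) ℤ)
        * wInt N q x y := by
  have h := wConjFun_spec N q x y hxy γ
  rw [← wConj_apply] at h
  have h' := congrArg (fun g : GL (Fin 2) ℝ => (g : Matrix (Fin 2) (Fin 2) ℝ)) h
  simp only [Matrix.GeneralLinearGroup.coe_mul, val_wAL, eGL63_apply] at h'
  have e00 := congrFun (congrFun h' 0) 0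
  have e01 := congrFun (congrFun h' 0) 1
  have e10 := congrFun (congrFun h' 1) 0
  have e11 := congrFun (congrFun h' 1) 1
  simp only [Matrix.mul_apply, Fin.sum_univ_two, mapGL_apply63, Matrix.of_apply, Matrix.cons_val',
    Matrix.cons_val_zero, Matrix.cons_val_one, Matrix.cons_val_fin_one] at e00 e01 e10 e11
  ext i j
  fin_cases i <;> fin_cases j <;>
    simp only [wInt, Matrix.mul_apply, Fin.sum_univ_two, Matrix.of_apply, Matrix.cons_val',
      Matrix.cons_val_zero, Matrix.cons_val_one, Matrix.cons_val_fin_one, Fin.zero_eta, Fin.mk_one]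
  · exact_mod_cast e00
  · exact_mod_cast e01
  · exact_mod_cast e10
  · exact_mod_cast e11

variable [NeZero (N * q)]

/-- **`W` is an isometry of the intersection form at level `N q`** (values form: `Wφ`, `Wψ` are ANY
parabolic homs with the values of `WOp φ`, `WOp ψ`). -/
theorem B_WOp' (φ ψ Wφ Wψ : parabolicHoms ℤ (Gamma0 (N * q)) ℤ)
    (hWφ : (Wφ : Additive (Gamma0 (N * q)) →+ ℤ)
      = WOp N q x y hxy (φ : Additive (Gamma0 (N * q)) →+ ℤ))
    (hWψ : (Wψ : Additive (Gamma0 (N * q)) →+ ℤ)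
      = WOp N q x y hxy (ψ : Additive (Gamma0 (N * q)) →+ ℤ)) :
    B (PDInst51.neg_one_mem_Gamma0_51 (N * q)) Wφ Wψ
      = B (PDInst51.neg_one_mem_Gamma0_51 (N * q)) φ ψ := by
  refine B_conj _ _ (wConj N q x y hxy) (wInt N q x y) ?_ (wInt_intertwine N q x y hxy) Wφ Wψ φ ψ
    ?_ ?_
  · rw [wInt_det N q x y hxy]
    exact_mod_cast hqp.out.pos
  · intro γ
    rw [hWφ, WOp_eq_comp_wConj]
  · intro γ
    rw [hWψ, WOp_eq_comp_wConj]

/-- `WOp` preserves parabolic homs. -/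
theorem WOp_mem_parabolicHoms {φ : Additive (Gamma0 (N * q)) →+ ℤ}
    (hφ : φ ∈ parabolicHoms ℤ (Gamma0 (N * q)) ℤ) :
    WOp N q x y hxy φ ∈ parabolicHoms ℤ (Gamma0 (N * q)) ℤ :=
  heckeHom_mem_parabolicHoms ℤ _ (wAL_isStable N q x y hxy) hφ

/-- `WOp` on `parabolicHoms ℤ (Γ₀(N q)) ℤ`. -/
noncomputable def WPar (φ : parabolicHoms ℤ (Gamma0 (N * q)) ℤ) :
    parabolicHoms ℤ (Gamma0 (N * q)) ℤ :=
  ⟨WOp N q x y hxy φ, WOp_mem_parabolicHoms N q x y hxy φ.2⟩

theorem WPar_WPar (φ : parabolicHoms ℤ (Gamma0 (N * q)) ℤ) :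
    WPar N q x y hxy (WPar N q x y hxy φ) = φ :=
  Subtype.ext (WOp_WOp N q x y hxy _)

/-- **`B (W φ) (W ψ) = B φ ψ`.** -/
theorem B_WOp (φ ψ : parabolicHoms ℤ (Gamma0 (N * q)) ℤ) :
    B (PDInst51.neg_one_mem_Gamma0_51 (N * q)) (WPar N q x y hxy φ) (WPar N q x y hxy ψ)
      = B (PDInst51.neg_one_mem_Gamma0_51 (N * q)) φ ψ :=
  B_WOp' N q x y hxy φ ψ _ _ rfl rfl

/-- **`W` is self-adjoint: `B (W φ) ψ = B φ (W ψ)`.** -/
theorem B_WOp_left (φ ψ : parabolicHoms ℤ (Gamma0 (N * q)) ℤ) :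
    B (PDInst51.neg_one_mem_Gamma0_51 (N * q)) (WPar N q x y hxy φ) ψ
      = B (PDInst51.neg_one_mem_Gamma0_51 (N * q)) φ (WPar N q x y hxy ψ) := by
  rw [← B_WOp N q x y hxy φ (WPar N q x y hxy ψ), WPar_WPar]

end AL

end Fermat.Agent.S41.PDComm92
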