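import Mathlib

/-!
# S41 [PD-COMM], abstract part (K2)(K3): the generator formula

`G` a group with two elements `s t`, `s * s = 1`, `t * t * t = 1`; `A` a commutative ring with
`G` acting by ring automorphisms; `ε : A →+ ℚ` a `G`-invariant additive functional.
For crossed homomorphisms `z z' : G → A` with `z s = z t = m`, `z' s = z' t = m'` and any
`K : G → A` with `K (g * h) = K g + g • K h - z g * g • z' h` (a primitive of the cup product):

`ε (K (s * t)) = (1/6) * (ε (m * m') + 2 * ε (m * t • m'))`   (K2),

and `ε ∘ K` does not depend on the primitive `K` when `s, t` generate `G` (K3).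
(helper92)
-/

set_option autoImplicit false

namespace Fermat.Agent.S41.PDComm92

universe u v

section Basic

variable {G : Type u} [Group G] {A : Type v} [CommRing A] [MulSemiringAction G A]

/-- Crossed homomorphisms `G → A` (for the additive group of `A`). -/
def IsCrossedHom (z : G → A) : Prop := ∀ g h : G, z (g * h) = z g + g • z h

/-- The cup product of two `1`-cochains. -/
def cup (z z' : G → A) (g h : G) : A := z g * g • z' h

theorem IsCrossedHom.map_one {z : G → A} (hz : IsCrossedHom z) : z 1 = 0 := by
  have h := hz 1 1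
  rw [mul_one, one_smul] at h
  have : z 1 + z 1 = z 1 + 0 := by rw [add_zero]; exact h.symm
  exact add_left_cancel this

theorem IsCrossedHom.map_mul_self {z : G → A} (hz : IsCrossedHom z) {s : G} (hs : s * s = 1) :
    s • z s = - z s := by
  have h := hz s s
  rw [hs, hz.map_one] at h
  exact (neg_eq_of_add_eq_zero_right h.symm).symm

theorem IsCrossedHom.sum_three {z : G → A} (hz : IsCrossedHom z) {t : G} (ht : t * t * t = 1) :
    z t + t • z t + (t * t) • z t = 0 := by
  have h1 := hz (t * t) t
  have h2 := hz t t
  rw [ht, hz.map_one, h2] at h1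
  exact h1.symm

end Basic

section Formula

variable {G : Type u} [Group G] {A : Type v} [CommRing A] [MulSemiringAction G A]
variable (ε : A →+ ℚ) (hε : ∀ (g : G) (a : A), ε (g • a) = ε a)
variable {s t : G} {z z' K : G → A} {m m' : A}

/-- A primitive of a cup product (in fact of any normalised `2`-cochain vanishing at `(1,1)`)
vanishes at `1`. -/
theorem primitive_one (hz : IsCrossedHom z)
    (hK : ∀ g h : G, K (g * h) = K g + g • K h - z g * g • z' h) : K 1 = 0 := by
  have h := hK 1 1
  rw [mul_one, one_smul, hz.map_one, zero_mul, sub_zero] at h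
  have : K 1 + K 1 = K 1 + 0 := by rw [add_zero]; exact h.symm
  exact add_left_cancel this

include hε in
/-- (K2a) `ε (K s) = -(1/2) ε (m m')`. -/
theorem eps_primitive_s (hs : s * s = 1) (hz : IsCrossedHom z) (hz' : IsCrossedHom z')
    (hzs : z s = m) (hz's : z' s = m')
    (hK : ∀ g h : G, K (g * h) = K g + g • K h - z g * g • z' h) :
    ε (K s) = -(1 / 2 : ℚ) * ε (m * m') := by
  have h := hK s s
  rw [hs, primitive_one hz hK, hzs, hz's] at h
  have hm' : s • m' = -m' := by rw [← hz's]; exact hz'.map_mul_self hs
  rw [hm'] at h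
  have h2 := congrArg ε h
  rw [map_zero, map_sub, map_add, hε, mul_neg, map_neg] at h2
  linarith

include hε in
/-- (K2b) `3 ε (K t) = ε (m * t • m') - ε (m m')`. -/
theorem eps_primitive_t (ht : t * t * t = 1) (hz : IsCrossedHom z) (hz' : IsCrossedHom z')
    (hzt : z t = m) (hz't : z' t = m')
    (hK : ∀ g h : G, K (g * h) = K g + g • K h - z g * g • z' h) :
    3 * ε (K t) = ε (m * t • m') - ε (m * m') := by
  have h1 := hK (t * t) t
  have h2 := hK t t
  have hz2 := hz t t
  rw [ht, primitive_one hz hK, h2, hz2, hzt, hz't] at h1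
  have hsum : m' + t • m' + (t * t) • m' = 0 := by
    have := hz'.sum_three ht
    rwa [hz't] at this
  have htt : (t * t) • m' = -m' - t • m' := by
    have : (t * t) • m' = (m' + t • m' + (t * t) • m') - m' - t • m' := by ring
    rw [this, hsum]; ring
  have h3 := congrArg ε h1
  have e1 : ε (t • m * (t * t) • m') = ε (m * t • m') := by
    have : t • m * (t * t) • m' = t • (m * t • m') := by
      rw [smul_mul', mul_smul]
    rw [this, hε]
  have e2 : ε (m * (t * t) • m') = - ε (m * m') - ε (m * t • m') := by
    rw [htt, mul_sub, mul_neg, map_sub, map_neg]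
  have expand : K t + t • K t - m * t • m' + (t * t) • K t - (m + t • m) * (t * t) • m'
      = K t + t • K t + (t * t) • K t - m * t • m' - m * (t * t) • m'
        - t • m * (t * t) • m' := by ring
  rw [expand, map_zero, map_sub, map_sub, map_sub, map_add, map_add, hε, hε, e1, e2] at h3
  linarith

include hε in
/-- **(K2)** the generator formula. -/
theorem eps_primitive_st (hs : s * s = 1) (ht : t * t * t = 1)
    (hz : IsCrossedHom z) (hz' : IsCrossedHom z')
    (hzs : z s = m) (hzt : z t = m) (hz's : z' s = m') (hz't : z' t = m')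
    (hK : ∀ g h : G, K (g * h) = K g + g • K h - z g * g • z' h) :
    ε (K (s * t)) = (1 / 6 : ℚ) * (ε (m * m') + 2 * ε (m * t • m')) := by
  have h := hK s t
  rw [hzs, hz't] at h
  have hm' : s • m' = -m' := by rw [← hz's]; exact hz'.map_mul_self hs
  rw [hm'] at h
  have h1 := eps_primitive_s ε hε hs hz hz' hzs hz's hK
  have h2 := eps_primitive_t ε hε ht hz hz' hzt hz't hK
  have h3 := congrArg ε h
  rw [map_sub, map_add, hε, mul_neg, map_neg] at h3
  rw [h3]
  linarith

/-- With `z s = z t` the crossed homomorphism vanishes at `s * t`. -/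
theorem crossedHom_st (hs : s * s = 1) (hz : IsCrossedHom z) (hzs : z s = m) (hzt : z t = m) :
    z (s * t) = 0 := by
  rw [hz s t, hzt, ← hzs, hz.map_mul_self hs, add_neg_cancel]

end Formula

section Unique

variable {G : Type u} [Group G] {A : Type v} [CommRing A] [MulSemiringAction G A]
variable (ε : A →+ ℚ) (hε : ∀ (g : G) (a : A), ε (g • a) = ε a)
variable {s t : G}

include hε in
/-- `ε ∘ c` vanishes for every crossed homomorphism `c` when `G` is generated by the torsion
elements `s`, `t`. -/
theorem eps_crossedHom_eq_zero (hs : s * s = 1) (ht : t * t * t = 1)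
    (hgen : Subgroup.closure ({s, t} : Set G) = ⊤) {c : G → A} (hc : IsCrossedHom c) (g : G) :
    ε (c g) = 0 := by
  have hmul : ∀ a b : G, ε (c (a * b)) = ε (c a) + ε (c b) := by
    intro a b
    rw [hc a b, map_add, hε]
  have hone : ε (c 1) = 0 := by rw [hc.map_one, map_zero]
  have hinv : ∀ a : G, ε (c a⁻¹) = - ε (c a) := by
    intro a
    have := hmul a a⁻¹
    rw [mul_inv_cancel, hone] at this
    linarith
  have hS : ε (c s) = 0 := by
    have := hmul s s
    rw [hs, hone] at this
    linarith
  have hT : ε (c t) = 0 := by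
    have h1 := hmul (t * t) t
    have h2 := hmul t t
    rw [ht, hone, h2] at h1
    linarith
  have hg : g ∈ Subgroup.closure ({s, t} : Set G) := by rw [hgen]; trivial
  induction hg using Subgroup.closure_induction with
  | mem x hx =>
    rcases hx with rfl | rfl
    · exact hS
    · exact hT
  | one => exact hone
  | mul a b _ _ ha hb => rw [hmul, ha, hb, add_zero]
  | inv a _ ha => rw [hinv, ha, neg_zero]

include hε in
/-- **(K3)** `ε ∘ K` does not depend on the primitive `K`. -/
theorem eps_primitive_unique (hs : s * s = 1) (ht : t * t * t = 1)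
    (hgen : Subgroup.closure ({s, t} : Set G) = ⊤) {Z : G → G → A} {K₁ K₂ : G → A}
    (h₁ : ∀ g h : G, K₁ (g * h) = K₁ g + g • K₁ h + Z g h)
    (h₂ : ∀ g h : G, K₂ (g * h) = K₂ g + g • K₂ h + Z g h) (g : G) :
    ε (K₁ g) = ε (K₂ g) := by
  have hc : IsCrossedHom (fun x => K₁ x - K₂ x) := by
    intro a b
    show K₁ (a * b) - K₂ (a * b) = K₁ a - K₂ a + a • (K₁ b - K₂ b)
    rw [h₁, h₂, smul_sub]
    ring
  have := eps_crossedHom_eq_zero ε hε hs ht hgen hc g
  rw [map_sub] at this
  linarith

end Unique

end Fermat.Agent.S41.PDComm92
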