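import Mathlib
import Fermat.Agent.S41.PDComm92.GenFormula

/-!
# S41 [PD-COMM], abstract part (K1): `H²(G, V) = 0` for `ℚ`-modules from the universal property

`G` a group, `s t : G` with `s * s = 1`, `t * t * t = 1`, generating `G`, and satisfying the
universal property `UP` (every pair `σ τ` in a group `H` with `σ² = 1 = τ³` is the image of
`(s, t)` under a homomorphism: `G ≅ C₂ * C₃`).  Then every normalised `2`-cocycle
`Z : G → G → V` with values in a `ℚ[G]`-module has a primitive:
`K (g * h) = K g + g • K h + Z g h`.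
(helper92)
-/

set_option autoImplicit false

namespace Fermat.Agent.S41.PDComm92

universe u v

/-- The universal property of `(G, s, t)` for homomorphisms into groups of universe `v`:
`G` is (a quotient of, hence with generation: is) the free product `C₂ * C₃`. -/
def UP (G : Type u) [Group G] (s t : G) : Prop :=
  ∀ (H : Type v) [Group H] (σ τ : H), σ * σ = 1 → τ * τ * τ = 1 →
    ∃ f : G →* H, f s = σ ∧ f t = τ

section Ext

variable {G : Type u} [Group G] {V : Type v} [AddCommGroup V] [DistribMulAction G V]

/-- Normalised `2`-cocycles. -/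
structure IsTwoCocycle (Z : G → G → V) : Prop where
  one_left : ∀ g : G, Z 1 g = 0
  one_right : ∀ g : G, Z g 1 = 0
  cocycle : ∀ g h k : G, g • Z h k + Z g (h * k) = Z (g * h) k + Z g h

/-- The underlying type of the extension `V ×_Z G`. -/
structure ExtElt (V : Type v) (G : Type u) where
  /-- the module component -/
  vec : V
  /-- the group component -/
  grp : G

omit [Group G] [AddCommGroup V] [DistribMulAction G V] in
@[ext] theorem ExtElt.ext' {x y : ExtElt V G} (h1 : x.vec = y.vec) (h2 : x.grp = y.grp) :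
    x = y := by
  cases x; cases y; simp_all

/-- The group structure on `V ×_Z G` attached to a normalised `2`-cocycle. -/
@[reducible] def extGroup {Z : G → G → V} (hZ : IsTwoCocycle Z) : Group (ExtElt V G) :=
  letI : Mul (ExtElt V G) :=
    ⟨fun x y => ⟨x.vec + x.grp • y.vec + Z x.grp y.grp, x.grp * y.grp⟩⟩
  letI : One (ExtElt V G) := ⟨⟨0, 1⟩⟩
  letI : Inv (ExtElt V G) :=
    ⟨fun x => ⟨-(x.grp⁻¹ • x.vec) - Z x.grp⁻¹ x.grp, x.grp⁻¹⟩⟩
  Group.ofLeftAxioms
    (by
      intro x y w
      apply ExtElt.ext'
      · show x.vec + x.grp • y.vec + Z x.grp y.grp + (x.grp * y.grp) • w.vec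
            + Z (x.grp * y.grp) w.grp
          = x.vec + x.grp • (y.vec + y.grp • w.vec + Z y.grp w.grp) + Z x.grp (y.grp * w.grp)
        have hc := hZ.cocycle x.grp y.grp w.grp
        rw [smul_add, smul_add, mul_smul]
        have : x.vec + x.grp • y.vec + Z x.grp y.grp + x.grp • y.grp • w.vec
            + Z (x.grp * y.grp) w.grp
            = x.vec + x.grp • y.vec + x.grp • y.grp • w.vec
              + (Z (x.grp * y.grp) w.grp + Z x.grp y.grp) := by abel
        rw [this, ← hc]
        abel
      · exact mul_assoc _ _ _)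
    (by
      intro x
      apply ExtElt.ext'
      · show (0 : V) + (1 : G) • x.vec + Z 1 x.grp = x.vec
        rw [hZ.one_left, one_smul, zero_add, add_zero]
      · exact one_mul _)
    (by
      intro x
      apply ExtElt.ext'
      · show -(x.grp⁻¹ • x.vec) - Z x.grp⁻¹ x.grp + x.grp⁻¹ • x.vec + Z x.grp⁻¹ x.grp = 0
        abel
      · exact inv_mul_cancel _)

end Ext

section Primitive

variable {G : Type u} [Group G] {V : Type v} [AddCommGroup V] [Module ℚ V] [DistribMulAction G V]

/-- In a `ℚ`-module, `a + a = 0` implies `a = 0`. -/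
theorem eq_zero_of_two_nsmul {a : V} (h : a + a = 0) : a = 0 := by
  have h2 : (2 : ℚ) • a = 0 := by rw [two_smul]; exact h
  exact (smul_eq_zero.mp h2).resolve_left (by norm_num)

/-- In a `ℚ`-module, `a + a + a = 0` implies `a = 0`. -/
theorem eq_zero_of_three_nsmul {a : V} (h : a + a + a = 0) : a = 0 := by
  have h2 : (3 : ℚ) • a = 0 := by
    have : (3 : ℚ) • a = a + a + a := by
      rw [show (3 : ℚ) = 1 + 1 + 1 by norm_num, add_smul, add_smul, one_smul]
    rw [this]; exact h
  exact (smul_eq_zero.mp h2).resolve_left (by norm_num)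

/-- **(K1)** every normalised `2`-cocycle with values in a `ℚ[G]`-module has a primitive. -/
theorem exists_primitive {s t : G} (hs : s * s = 1) (ht : t * t * t = 1)
    (hgen : Subgroup.closure ({s, t} : Set G) = ⊤) (hUP : UP.{u, max u v} G s t)
    {Z : G → G → V} (hZ : IsTwoCocycle Z) :
    ∃ K : G → V, ∀ g h : G, K (g * h) = K g + g • K h + Z g h := by
  let _ : Group (ExtElt V G) := extGroup hZ
  have mul_vec : ∀ x y : ExtElt V G, (x * y).vec = x.vec + x.grp • y.vec + Z x.grp y.grp :=
    fun _ _ => rfl
  have mul_grp : ∀ x y : ExtElt V G, (x * y).grp = x.grp * y.grp := fun _ _ => rfl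
  have one_vec : (1 : ExtElt V G).vec = 0 := rfl
  have one_grp : (1 : ExtElt V G).grp = 1 := rfl
  -- invariance of the obstruction classes
  have hsZ : s • Z s s = Z s s := by
    have h := hZ.cocycle s s s
    rw [hs, hZ.one_left, hZ.one_right, add_zero, zero_add] at h
    exact h
  set c : V := Z t t + Z (t * t) t with hc
  have htc : t • c = c := by
    have h1 := hZ.cocycle t t t
    have h2 := hZ.cocycle t (t * t) t
    have ht' : t * (t * t) = 1 := by rw [← mul_assoc]; exact ht
    rw [ht, hZ.one_right, add_zero, ht', hZ.one_left, zero_add] at h2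
    -- h1 : t • Z t t + Z t (t*t) = Z (t*t) t + Z t t ; h2 : t • Z (t*t) t = Z t (t*t)
    rw [hc, smul_add, h2]
    have : t • Z t t = Z (t * t) t + Z t t - Z t (t * t) := by
      rw [← h1]; abel
    rw [this]; abel
  -- the lifts
  set a : V := (-(1 / 2 : ℚ)) • Z s s with ha
  set b : V := (-(1 / 3 : ℚ)) • c with hb
  have hsa : s • a = a := by
    rw [ha]
    have := map_rat_smul (DistribSMul.toAddMonoidHom V s) (-(1 / 2 : ℚ)) (Z s s)
    simp only [DistribSMul.toAddMonoidHom_apply] at this
    rw [this, hsZ]
  have htb : t • b = b := by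
    rw [hb]
    have := map_rat_smul (DistribSMul.toAddMonoidHom V t) (-(1 / 3 : ℚ)) c
    simp only [DistribSMul.toAddMonoidHom_apply] at this
    rw [this, htc]
  have haa : a + a + Z s s = 0 := by
    rw [ha, ← add_smul]
    have : (-(1 / 2 : ℚ) + -(1 / 2 : ℚ)) = -1 := by norm_num
    rw [this, neg_one_smul, neg_add_cancel]
  have hbb : b + b + b + c = 0 := by
    rw [hb, ← add_smul, ← add_smul]
    have : (-(1 / 3 : ℚ) + -(1 / 3 : ℚ) + -(1 / 3 : ℚ)) = -1 := by norm_num
    rw [this, neg_one_smul, neg_add_cancel]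
  have hσ : (⟨a, s⟩ : ExtElt V G) * ⟨a, s⟩ = 1 := by
    apply ExtElt.ext'
    · rw [mul_vec, one_vec]
      show a + s • a + Z s s = 0
      rw [hsa]; exact haa
    · rw [mul_grp, one_grp]; exact hs
  have hτ : (⟨b, t⟩ : ExtElt V G) * ⟨b, t⟩ * ⟨b, t⟩ = 1 := by
    apply ExtElt.ext'
    · rw [mul_vec, mul_vec, mul_grp, one_vec]
      show b + t • b + Z t t + (t * t) • b + Z (t * t) t = 0
      rw [mul_smul, htb, htb]
      have : b + b + Z t t + b + Z (t * t) t = b + b + b + c := by rw [hc]; abel
      rw [this]; exact hbb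
    · rw [mul_grp, mul_grp, one_grp]; exact ht
  obtain ⟨ρ, hρs, hρt⟩ := hUP (ExtElt V G) ⟨a, s⟩ ⟨b, t⟩ hσ hτ
  -- the projection to `G`
  let π : ExtElt V G →* G :=
    { toFun := fun x => x.grp
      map_one' := rfl
      map_mul' := fun _ _ => rfl }
  have hπρ : ∀ g : G, (ρ g).grp = g := by
    have hEq : Set.EqOn (π.comp ρ) (MonoidHom.id G) ({s, t} : Set G) := by
      intro x hx
      rcases hx with rfl | rfl
      · show (ρ x).grp = x
        rw [hρs]
      · show (ρ x).grp = x
        rw [hρt]
    have := MonoidHom.eqOn_closure hEq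
    intro g
    have hg : g ∈ (Subgroup.closure ({s, t} : Set G) : Set G) := by rw [hgen]; trivial
    exact this hg
  refine ⟨fun g => (ρ g).vec, fun g h => ?_⟩
  show (ρ (g * h)).vec = (ρ g).vec + g • (ρ h).vec + Z g h
  rw [map_mul, mul_vec, hπρ g, hπρ h]

end Primitive

section Cup

variable {G : Type u} [Group G] {A : Type v} [CommRing A] [MulSemiringAction G A]

/-- The cup product of two crossed homomorphisms is a normalised `2`-cocycle. -/
theorem isTwoCocycle_cup {z z' : G → A} (hz : IsCrossedHom z) (hz' : IsCrossedHom z') :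
    IsTwoCocycle (cup z z') where
  one_left g := by show z 1 * (1 : G) • z' g = 0; rw [hz.map_one, zero_mul]
  one_right g := by show z g * g • z' 1 = 0; rw [hz'.map_one, smul_zero, mul_zero]
  cocycle g h k := by
    show g • (z h * h • z' k) + z g * g • z' (h * k) = z (g * h) * (g * h) • z' k + z g * g • z' h
    rw [hz g h, hz' h k, smul_mul', smul_add, mul_smul]
    ring

/-- The negative of a normalised `2`-cocycle is one. -/
theorem IsTwoCocycle.neg {V : Type v} [AddCommGroup V] [DistribMulAction G V] {Z : G → G → V}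
    (hZ : IsTwoCocycle Z) : IsTwoCocycle (fun g h => - Z g h) where
  one_left g := by rw [hZ.one_left, neg_zero]
  one_right g := by rw [hZ.one_right, neg_zero]
  cocycle g h k := by
    have := hZ.cocycle g h k
    rw [smul_neg, ← neg_add, ← neg_add, this]

/-- **(K1) + cup**: existence of a primitive of the cup product of two crossed homomorphisms. -/
theorem exists_primitive_cup [Algebra ℚ A] {s t : G} (hs : s * s = 1) (ht : t * t * t = 1)
    (hgen : Subgroup.closure ({s, t} : Set G) = ⊤) (hUP : UP.{u, max u v} G s t)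
    {z z' : G → A} (hz : IsCrossedHom z) (hz' : IsCrossedHom z') :
    ∃ K : G → A, ∀ g h : G, K (g * h) = K g + g • K h - z g * g • z' h := by
  obtain ⟨K, hK⟩ := exists_primitive hs ht hgen hUP (isTwoCocycle_cup hz hz').neg
  refine ⟨K, fun g h => ?_⟩
  rw [hK g h]
  show K g + g • K h + -(z g * g • z' h) = K g + g • K h - z g * g • z' h
  rw [sub_eq_add_neg]

end Cup

end Fermat.Agent.S41.PDComm92
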